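import Fermat.Agent.Lifting.Galois.SubRep

/-!
# Carayol's lemma

Two lifts of an absolutely irreducible residual representation to a finite local algebra in which
`2` is a unit are equivalent as soon as the traces of almost all Frobenius elements agree.
-/

set_option autoImplicit false
set_option linter.style.haveILetI false

noncomputable section

namespace Fermat.Agent.Lifting

open IsLocalRing Module Matrix Fermat.Agent.Deform

section Pure

variable {O : Type} [CommRing O] [IsLocalRing O] {A : Type} [CommRing A] [Algebra O A]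

omit [IsLocalRing O] in
theorem trace_mul_evalC (r : Gal →* M2 A) (c : Gal →₀ O) (σ : Gal) :
    (r σ * evalC c r).trace = c.sum fun τ o => o • (r (σ * τ)).trace := by
  simp only [evalC, Finsupp.sum, Finset.mul_sum, Matrix.trace_sum, mul_smul_comm,
    Matrix.trace_smul, ← map_mul]

omit [IsLocalRing O] in
theorem trace_evalC_mul (r : Gal →* M2 A) (c : Gal →₀ O) (Z : M2 A) :
    (evalC c r * Z).trace = c.sum fun τ o => o • (r τ * Z).trace := by
  simp only [evalC, Finsupp.sum, Finset.sum_mul, smul_mul_assoc, Matrix.trace_sum,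
    Matrix.trace_smul]

/-- Normalised lifts with equal traces are equal. -/
theorem normal_eq_of_trace_eq [IsLocalRing A] {W : Rigid O} {h : IsResAlg O A}
    {r r' : Gal →* M2 A} (hl : Lifts W h r) (hl' : Lifts W h r') (hn : IsNormal W r)
    (hn' : IsNormal W r')
    (hspan : Submodule.span (ResidueField O) (Set.range W.rb) = ⊤) (h2 : IsUnit (2 : A))
    (htr : ∀ σ, (r σ).trace = (r' σ).trace) : r = r' := by
  obtain ⟨hX01, hX10, hY10⟩ := hn
  obtain ⟨hX01', hX10', hY10'⟩ := hn'
  set X := evalC W.cX r with hX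
  set X' := evalC W.cX r' with hX'
  have hμ : ∀ σ, (r σ * X).trace = (r' σ * X').trace := fun σ => by
    rw [hX, hX', trace_mul_evalC, trace_mul_evalC]
    exact Finsupp.sum_congr fun τ _ => by rw [htr]
  have hsum : X 0 0 + X 1 1 = X' 0 0 + X' 1 1 := by
    have := hμ 1
    simpa [Matrix.trace_fin_two] using this
  have hsq : X 0 0 * X 0 0 + X 1 1 * X 1 1 = X' 0 0 * X' 0 0 + X' 1 1 * X' 1 1 := by
    have h1 : (X * X).trace = (X' * X').trace := by
      conv_lhs => arg 1; arg 1; rw [hX]
      conv_rhs => arg 1; arg 1; rw [hX']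
      rw [trace_evalC_mul, trace_evalC_mul]
      exact Finsupp.sum_congr fun τ _ => by rw [hμ]
    simpa [Matrix.trace_fin_two, Matrix.mul_apply, Fin.sum_univ_two, hX01, hX10, hX01', hX10']
      using h1
  have hprodX : X 0 0 * X 1 1 = X' 0 0 * X' 1 1 := h2.mul_left_cancel (by
    linear_combination (X 0 0 + X 1 1 + (X' 0 0 + X' 1 1)) * hsum - hsq)
  have a0 : augment h (X 0 0) = 1 := by simpa [Matrix.single_apply] using augment_X hl 0 0
  have a1 : augment h (X 1 1) = 0 := by simpa [Matrix.single_apply] using augment_X hl 1 1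
  have b1 : augment h (X' 1 1) = 0 := by simpa [Matrix.single_apply] using augment_X hl' 1 1
  have x0 : X 0 0 = X' 0 0 := by
    have hu : IsUnit (X 0 0 - X' 1 1) :=
      isUnit_of_augment_ne_zero h (by rw [map_sub, a0, b1, sub_zero]; exact one_ne_zero)
    refine sub_eq_zero.mp (hu.mul_left_eq_zero.mp ?_)
    linear_combination (X 0 0) * hsum - hprodX
  have x1 : X 1 1 = X' 1 1 := by linear_combination hsum - x0
  have hu : IsUnit (X 0 0 - X 1 1) :=
    isUnit_of_augment_ne_zero h (by rw [map_sub, a0, a1, sub_zero]; exact one_ne_zero)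
  have hdiag : ∀ τ, r τ 0 0 = r' τ 0 0 ∧ r τ 1 1 = r' τ 1 1 := fun τ => by
    have e := hμ τ
    have t := htr τ
    simp [Matrix.trace_fin_two, Matrix.mul_apply, Fin.sum_univ_two, hX01, hX10, hX01', hX10'] at e
    rw [Matrix.trace_fin_two, Matrix.trace_fin_two] at t
    rw [← x0, ← x1] at e
    have h0 : r τ 0 0 = r' τ 0 0 :=
      hu.mul_left_cancel (by linear_combination e - (X 1 1) * t)
    exact ⟨h0, by linear_combination t - h0⟩
  have hprod : ∀ τ υ, r τ 0 1 * r υ 1 0 = r' τ 0 1 * r' υ 1 0 := fun τ υ => by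
    have e := (hdiag (τ * υ)).1
    simp [map_mul, Matrix.mul_apply, Fin.sum_univ_two] at e
    rw [(hdiag τ).1, (hdiag υ).1] at e
    linear_combination e
  have hupper : ∀ τ, r τ 0 1 = r' τ 0 1 := fun τ => by
    rw [evalC_apply] at hY10 hY10'
    rw [← mul_one (r τ 0 1), ← hY10]
    conv_rhs => rw [← mul_one (r' τ 0 1), ← hY10']
    simp only [Finsupp.sum, Finset.mul_sum, mul_smul_comm, hprod]
  obtain ⟨τ, hτ⟩ : ∃ τ, W.rb τ 0 1 ≠ 0 := by
    by_contra! hall
    have hmem : ∀ M ∈ Submodule.span (ResidueField O) (Set.range W.rb), M 0 1 = 0 := by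
      intro M hM
      induction hM using Submodule.span_induction with
      | mem M hM => obtain ⟨υ, rfl⟩ := hM; exact hall υ
      | zero => rfl
      | add M N _ _ hM hN => simp [hM, hN]
      | smul c M _ hM => simp [hM]
    have := hmem (Matrix.single 0 1 1) (by rw [hspan]; trivial)
    simp at this
  have hτu : IsUnit (r τ 0 1) := isUnit_of_augment_ne_zero h (by rw [hl]; exact hτ)
  refine MonoidHom.ext fun σ => Matrix.ext fun i j => ?_
  have hlower : r σ 1 0 = r' σ 1 0 := hτu.mul_left_cancel (by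
    rw [hprod, hupper])
  fin_cases i <;> fin_cases j
  exacts [(hdiag σ).1, hupper σ, hlower, (hdiag σ).2]

end Pure

variable {O : Type} [CommRing O] [IsDomain O] [IsDiscreteValuationRing O]
  {A : Type} [CommRing A] [IsLocalRing A] [Algebra O A] [Module.Finite O A]

/-- Traces of two continuous representations agreeing at almost all Frobenius elements agree. -/
theorem trace_eq_of_frobenius (h : IsResAlg O A) {r r' : Gal →* M2 A} (hr : IsCont r)
    (hr' : IsCont r') (S : Finset ℕ)
    (hF : ∀ ℓ : ℕ, ℓ.Prime → ℓ ∉ S → ∀ P : ValuationSubring (AlgebraicClosure ℚ),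
      P.LiesOverPrime ℓ → ∀ σ : Gal, P.IsFrobeniusAt σ ℓ → (r σ).trace = (r' σ).trace)
    (g : Gal) : (r g).trace = (r' g).trace := by
  rw [← sub_eq_zero, ← Submodule.mem_bot O]
  refine mem_of_forall_exists_sub_mem_pow h ⊥ fun n => ⟨0, zero_mem _, ?_⟩
  rw [sub_zero]
  obtain ⟨L, hL, hL1⟩ := hr n
  obtain ⟨L', hL', hL1'⟩ := hr' n
  haveI := hL
  haveI := hL'
  set q := Ideal.Quotient.mk (maximalIdeal A ^ n)
  have hone : ∀ {s : Gal →* M2 A} {σ : Gal},
      (∀ i j, s σ i j - (1 : M2 A) i j ∈ maximalIdeal A ^ n) → mapM q s σ = 1 := by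
    intro s σ hσ
    ext i j
    rw [mapM_apply, show (1 : M2 (A ⧸ maximalIdeal A ^ n)) i j = q ((1 : M2 A) i j) by
      simp only [Matrix.one_apply, apply_ite q, map_one, map_zero], Ideal.Quotient.eq]
    exact hσ i j
  obtain ⟨ℓ, hℓ, hℓS, P, hP, σ, hσ, heq⟩ :=
    Arith.Chebotarev.exists_frobenius_eq ((mapM q r).prod (mapM q r')) (L ⊔ L') (fun σ hσ =>
      Prod.ext (hone (hL1 σ fun x hx => hσ x (le_sup_left (b := L') hx)))
        (hone (hL1' σ fun x hx => hσ x (le_sup_right (a := L) hx)))) g S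
  have key : ∀ {s : Gal →* M2 A}, mapM q s σ = mapM q s g →
      (s g).trace - (s σ).trace ∈ maximalIdeal A ^ n := by
    intro s hs
    have e : ∀ i, s g i i - s σ i i ∈ maximalIdeal A ^ n := fun i =>
      Ideal.Quotient.eq.mp (congrFun (congrFun hs i) i).symm
    rw [Matrix.trace_fin_two, Matrix.trace_fin_two, add_sub_add_comm]
    exact add_mem (e 0) (e 1)
  have h1 := key (congrArg Prod.fst heq)
  have h1' := key (congrArg Prod.snd heq)
  have e := hF ℓ hℓ hℓS P hP σ hσ
  rw [show (r g).trace - (r' g).trace =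
    ((r g).trace - (r σ).trace) - ((r' g).trace - (r' σ).trace) by rw [e]; ring]
  exact sub_mem h1 h1'

/-- Carayol's lemma. -/
theorem isEquiv_of_trace_frobenius [IsAdicComplete (maximalIdeal O) O]
    [IsLocalHom (algebraMap O A)] (h : IsResAlg O A) (h2 : IsUnit (2 : A))
    {ρbar : ResidualGaloisRep (ResidueField O)} (habs : ρbar.IsAbsolutelyIrreducible)
    (r r' : GaloisRepAdic A)
    (hres : r.residual.IsEquiv (ρbar.baseChangeAlong (ResidueField.map (algebraMap O A))))
    (hres' : r'.residual.IsEquiv (ρbar.baseChangeAlong (ResidueField.map (algebraMap O A))))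
    (S : Finset ℕ)
    (htr : ∀ ℓ : ℕ, ℓ.Prime → ℓ ∉ S → ∀ P : ValuationSubring (AlgebraicClosure ℚ),
      P.LiesOverPrime ℓ → ∀ σ : Gal, P.IsFrobeniusAt σ ℓ →
        LinearMap.trace A r.V (r.ρ σ) = LinearMap.trace A r'.V (r'.ρ σ)) :
    r.IsEquiv r' := by
  haveI : IsAdicComplete (maximalIdeal A) A := isAdicComplete_of_module_finite (𝒪 := O)
  let bb : Basis (Fin 2) (ResidueField O) ρbar.V :=
    Module.finBasisOfFinrankEq (ResidueField O) ρbar.V ρbar.finrank_eq
  obtain ⟨W, hW⟩ := exists_rigid ρbar habs bb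
  obtain ⟨b, hl⟩ := exists_lifts_basis hW h r hres
  obtain ⟨b', hl'⟩ := exists_lifts_basis hW h r' hres'
  obtain ⟨P, hlP, hnP⟩ := exists_normal hl
  obtain ⟨P', hlP', hnP'⟩ := exists_normal hl'
  have hc : IsCont (conjM P (matOf r b)) := (isCont_matOf r b).conj P
  have hc' : IsCont (conjM P' (matOf r' b')) := (isCont_matOf r' b').conj P'
  have ht : ∀ (s : GaloisRepAdic A) (c : Basis (Fin 2) A s.V) (Q : (M2 A)ˣ) (σ : Gal),
      (conjM Q (matOf s c) σ).trace = LinearMap.trace A s.V (s.ρ σ) := fun s c Q σ => by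
    show ((↑Q⁻¹ : M2 A) * matOf s c σ * (Q : M2 A)).trace = _
    rw [Matrix.trace_mul_comm, ← mul_assoc, Units.mul_inv, one_mul,
      LinearMap.trace_eq_matrix_trace A c]
    rfl
  have hspan : Submodule.span (ResidueField O) (Set.range W.rb) = ⊤ := by
    rw [hW]
    exact span_matrix_eq_top ρbar habs bb
  have heq := normal_eq_of_trace_eq hlP hlP' hnP hnP' hspan h2
    (trace_eq_of_frobenius h hc hc' S fun ℓ hℓ hℓS Q hQ σ hσ => by
      rw [ht, ht]; exact htr ℓ hℓ hℓS Q hQ σ hσ)
  exact isEquiv_trans (isEquiv_toRep_matOf r b) (isEquiv_trans (isEquiv_conj (isCont_matOf r b) P)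
    (isEquiv_trans (isEquiv_toRep_congr heq hc hc')
      (isEquiv_trans (isEquiv_symm (isEquiv_conj (isCont_matOf r' b') P'))
        (isEquiv_symm (isEquiv_toRep_matOf r' b')))))

end Fermat.Agent.Lifting

end
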