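import Fermat.Agent.CFT.Tangent.BaseChange

/-!
# The local conditions are invariant under equivalence and descend along injections
-/

set_option autoImplicit false
set_option linter.style.haveILetI false

noncomputable section

namespace Fermat.Agent.Lifting

open IsLocalRing Module WithConv
open scoped TensorProduct

variable {A : Type} [CommRing A] [IsLocalRing A] {ρ ρ' : GaloisRepAdic A}

theorem conj_eq (e : GaloisRepAdic.Equiv ρ ρ') (σ : Deform.Gal) :
    e.toLinearEquiv.conj (ρ.ρ σ) = ρ'.ρ σ := LinearMap.ext fun x => by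
  rw [LinearEquiv.conj_apply_apply, e.map_apply, LinearEquiv.apply_symm_apply]

theorem charpoly_congr (e : GaloisRepAdic.Equiv ρ ρ') (σ : Deform.Gal) :
    LinearMap.charpoly (ρ'.ρ σ) = LinearMap.charpoly (ρ.ρ σ) := by
  rw [← conj_eq e, LinearEquiv.charpoly_conj]

theorem det_congr (e : GaloisRepAdic.Equiv ρ ρ') (σ : Deform.Gal) :
    LinearMap.det (ρ'.ρ σ) = LinearMap.det (ρ.ρ σ) := by
  rw [← conj_eq e]
  exact LinearMap.det_conj _ _

theorem trace_congr (e : GaloisRepAdic.Equiv ρ ρ') (σ : Deform.Gal) :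
    LinearMap.trace A ρ'.V (ρ'.ρ σ) = LinearMap.trace A ρ.V (ρ.ρ σ) := by
  rw [← conj_eq e, LinearMap.trace_conj']

theorem isUnramifiedAt_congr (he : ρ.IsEquiv ρ') {q : ℕ} (h : ρ.IsUnramifiedAt q) :
    ρ'.IsUnramifiedAt q := fun P hP σ hσ => by
  obtain ⟨e⟩ := he
  rw [← conj_eq e, h P hP σ hσ]
  exact LinearMap.ext fun x => by simp [LinearEquiv.conj_apply_apply]

theorem isUnipotentOnInertiaAt_congr (he : ρ.IsEquiv ρ') {q : ℕ}
    (h : ρ.IsUnipotentOnInertiaAt q) : ρ'.IsUnipotentOnInertiaAt q := fun P hP σ hσ => by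
  obtain ⟨e⟩ := he
  rw [charpoly_congr e, h P hP σ hσ]

theorem detIsCyclotomic_congr (he : ρ.IsEquiv ρ') {p : ℕ} (h : ρ.DetIsCyclotomic p) :
    ρ'.DetIsCyclotomic p := ⟨h.1, fun n σ a ha => by
  obtain ⟨e⟩ := he
  rw [det_congr e]
  exact h.2 n σ a ha⟩

theorem isFlatAt_congr (he : ρ.IsEquiv ρ') {p : ℕ} (h : ρ.IsFlatAt p) : ρ'.IsFlatAt p := by
  obtain ⟨e⟩ := he
  refine ⟨h.1, fun I hI => ?_⟩
  obtain ⟨H, _, _, hfin, hflat, hco, f, hf, hfσ⟩ := h.2 I hI
  let g : (ρ.V ⧸ (I • (⊤ : Submodule A ρ.V))) ≃ₗ[A] ρ'.V ⧸ (I • (⊤ : Submodule A ρ'.V)) :=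
    Submodule.Quotient.equiv _ _ e.toLinearEquiv (by
      rw [Submodule.map_smul'', Submodule.map_top]
      exact congrArg _ (LinearMap.range_eq_top.mpr e.toLinearEquiv.surjective))
  refine ⟨H, _, _, hfin, hflat, hco, f.trans g.toEquiv, fun x y => ?_, fun σ x y hxy => ?_⟩
  · show g (f (x * y)) = g (f x) + g (f y)
    rw [hf, map_add]
  · show g (f y) = ρ'.levelAction I σ (g (f x))
    rw [hfσ σ x y hxy]
    generalize f x = v
    obtain ⟨v, rfl⟩ := Submodule.Quotient.mk_surjective _ v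
    exact congrArg Submodule.Quotient.mk (e.map_apply σ v)

variable {B : Type} [CommRing B] [IsLocalRing B] {φ : A →+* B} {hφ : IsLocalHom φ}

theorem isUnramifiedAt_of_baseChange (hinj : Function.Injective φ) {q : ℕ}
    (h : (ρ.baseChangeAlong φ hφ).IsUnramifiedAt q) : ρ.IsUnramifiedAt q := fun P hP σ hσ => by
  let b := Module.finBasisOfFinrankEq A ρ.V ρ.finrank_eq
  apply (LinearMap.toMatrixAlgEquiv b).injective
  letI := φ.toAlgebra
  apply Matrix.map_injective hinj
  have h1 : Deform.mapM φ (Deform.matOf ρ b) σ = 1 := by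
    rw [← Deform.matOf_baseChangeAlong φ hφ ρ b]
    exact (congrArg (LinearMap.toMatrixAlgEquiv (b.baseChange B)) (h P hP σ hσ)).trans (map_one _)
  refine h1.trans ?_
  rw [map_one]
  exact (Matrix.map_one φ (map_zero φ) (map_one φ)).symm

theorem isUnipotentOnInertiaAt_of_baseChange (hinj : Function.Injective φ) {q : ℕ}
    (h : (ρ.baseChangeAlong φ hφ).IsUnipotentOnInertiaAt q) : ρ.IsUnipotentOnInertiaAt q :=
  fun P hP σ hσ => by
    refine Polynomial.map_injective φ hinj ?_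
    rw [← CFT.Tangent.charpoly_baseChangeAlong φ hφ, h P hP σ hσ]
    simp

end Fermat.Agent.Lifting
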