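import Fermat.Agent.Deform.Burnside
import Fermat.Prelude.Def_GaloisRep_ResidualEquiv
import Mathlib.LinearAlgebra.GeneralLinearGroup.AlgEquiv

/-!
# Residual representations are determined by their traces

A two-dimensional representation with the traces of an absolutely irreducible one is equivalent to
it: the traces determine the linear relations between the matrices, and the resulting automorphism
of the matrix algebra is a conjugation.
-/

set_option autoImplicit false
set_option linter.style.haveILetI false

noncomputable section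

namespace Fermat.Agent.Lifting

open _root_.Module Matrix
open Fermat.Agent.Deform (Gal M2)

section Matrices

variable {k : Type} [Field k] {G : Type} [Monoid G] (r r' : G →* M2 k)

/-- The trace pairing of a spanning family is non-degenerate. -/
theorem eq_zero_of_trace_mul_family (hspan : Submodule.span k (Set.range r) = ⊤) {X : M2 k}
    (h : ∀ g, (X * r g).trace = 0) : X = 0 := by
  have hall : ∀ Y : M2 k, (X * Y).trace = 0 := fun Y => by
    have hY : Y ∈ Submodule.span k (Set.range r) := hspan.symm ▸ Submodule.mem_top
    induction hY using Submodule.span_induction with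
    | mem Y hY => obtain ⟨g, rfl⟩ := hY; exact h g
    | zero => rw [mul_zero, Matrix.trace_zero]
    | add Y Z _ _ hY hZ => rw [mul_add, Matrix.trace_add, hY, hZ, add_zero]
    | smul c Y _ hY => rw [mul_smul_comm, Matrix.trace_smul, hY, smul_zero]
  ext i j
  have := hall (Matrix.single j i 1)
  rw [Matrix.trace_mul_single] at this
  simpa using this

variable {r r'}

theorem trace_linearCombination_mul (htr : ∀ g, (r g).trace = (r' g).trace) (c : G →₀ k) (g : G) :
    (Finsupp.linearCombination k r c * r g).trace =
      (Finsupp.linearCombination k r' c * r' g).trace := by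
  simp only [Finsupp.linearCombination_apply, Finsupp.sum, Finset.sum_mul, Matrix.trace_sum,
    smul_mul_assoc, Matrix.trace_smul, ← map_mul, htr]

/-- The traces determine the linear relations. -/
theorem ker_le_ker_of_trace (hspan : Submodule.span k (Set.range r) = ⊤)
    (htr : ∀ g, (r g).trace = (r' g).trace) :
    LinearMap.ker (Finsupp.linearCombination k (r' : G → M2 k)) ≤
      LinearMap.ker (Finsupp.linearCombination k (r : G → M2 k)) := fun c hc => by
  rw [LinearMap.mem_ker] at hc ⊢
  refine eq_zero_of_trace_mul_family r hspan fun g => ?_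
  rw [trace_linearCombination_mul htr, hc, zero_mul, Matrix.trace_zero]

theorem span_range_eq_top_of_trace (hspan : Submodule.span k (Set.range r) = ⊤)
    (htr : ∀ g, (r g).trace = (r' g).trace) : Submodule.span k (Set.range r') = ⊤ := by
  set ψ := Finsupp.linearCombination k (r : G → M2 k)
  set ψ' := Finsupp.linearCombination k (r' : G → M2 k)
  have hψ : Function.Surjective ψ := by
    rw [← LinearMap.range_eq_top, Finsupp.range_linearCombination]; exact hspan
  let φ : LinearMap.range ψ' →ₗ[k] M2 k :=
    (Submodule.liftQ _ ψ (ker_le_ker_of_trace hspan htr)).comp ψ'.quotKerEquivRange.symm.toLinearMap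
  have hφ : Function.Surjective φ := fun X => by
    obtain ⟨c, rfl⟩ := hψ X
    refine ⟨ψ'.quotKerEquivRange (Submodule.Quotient.mk c), ?_⟩
    simp only [φ, LinearMap.comp_apply, LinearEquiv.coe_coe, LinearEquiv.symm_apply_apply]
    rfl
  rw [← Finsupp.range_linearCombination]
  exact Submodule.eq_top_of_finrank_eq
    (le_antisymm (Submodule.finrank_le _) (LinearMap.finrank_le_finrank_of_surjective hφ))

/-- Equal traces give an automorphism of the matrix algebra carrying one to the other. -/
theorem exists_algEquiv_of_trace (hspan : Submodule.span k (Set.range r) = ⊤)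
    (htr : ∀ g, (r g).trace = (r' g).trace) :
    ∃ f : M2 k ≃ₐ[k] M2 k, ∀ g, f (r g) = r' g := by
  have hspan' := span_range_eq_top_of_trace hspan htr
  set ψ := Finsupp.linearCombination k (r : G → M2 k)
  set ψ' := Finsupp.linearCombination k (r' : G → M2 k)
  obtain ⟨s, hs⟩ := ψ.exists_rightInverse_of_surjective (by
    rw [Finsupp.range_linearCombination]; exact hspan)
  let f : M2 k →ₗ[k] M2 k := ψ'.comp s
  have hker : LinearMap.ker ψ ≤ LinearMap.ker ψ' :=
    ker_le_ker_of_trace hspan' fun g => (htr g).symm
  have hf : ∀ g, f (r g) = r' g := fun g => by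
    have h1 : ψ (Finsupp.single g 1) = r g := by
      rw [Finsupp.linearCombination_single, one_smul]
    have h2 : s (r g) - Finsupp.single g 1 ∈ LinearMap.ker ψ := by
      rw [LinearMap.mem_ker, map_sub, h1, ← LinearMap.comp_apply, hs, LinearMap.id_apply, sub_self]
    have h3 := hker h2
    rw [LinearMap.mem_ker, map_sub, Finsupp.linearCombination_single, one_smul, sub_eq_zero] at h3
    exact h3
  have hsurj : Function.Surjective f := by
    rw [← LinearMap.range_eq_top, eq_top_iff, ← hspan', Submodule.span_le]
    rintro _ ⟨g, rfl⟩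
    exact ⟨r g, hf g⟩
  let e : M2 k ≃ₗ[k] M2 k :=
    LinearEquiv.ofBijective f ⟨LinearMap.injective_iff_surjective.mpr hsurj, hsurj⟩
  have hmul : ∀ X Y : M2 k, f (X * Y) = f X * f Y := fun X Y => by
    have hX : X ∈ Submodule.span k (Set.range r) := hspan.symm ▸ Submodule.mem_top
    induction hX using Submodule.span_induction with
    | mem X hX =>
      obtain ⟨g, rfl⟩ := hX
      have hY : Y ∈ Submodule.span k (Set.range r) := hspan.symm ▸ Submodule.mem_top
      induction hY using Submodule.span_induction with
      | mem Y hY => obtain ⟨h, rfl⟩ := hY; rw [← map_mul, hf, hf, hf, map_mul]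
      | zero => simp
      | add Y Z _ _ hY hZ => rw [mul_add, map_add, map_add, hY, hZ, mul_add]
      | smul c Y _ hY => rw [mul_smul_comm, map_smul, map_smul, hY, mul_smul_comm]
    | zero => simp
    | add X Z _ _ hX hZ => rw [add_mul, map_add, map_add, hX, hZ, add_mul]
    | smul c X _ hX => rw [smul_mul_assoc, map_smul, map_smul, hX, smul_mul_assoc]
  exact ⟨AlgEquiv.ofLinearEquiv e (by simpa [e] using hf 1) hmul, hf⟩

end Matrices

/-- **Residual representations with equal traces**, one of them absolutely irreducible, are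
equivalent. -/
theorem isEquiv_of_trace_eq {k : Type} [Field k] {ρ ρ' : ResidualGaloisRep k}
    (habs : ρ.IsAbsolutelyIrreducible)
    (htr : ∀ σ, LinearMap.trace k ρ.V (ρ.ρ σ) = LinearMap.trace k ρ'.V (ρ'.ρ σ)) :
    ρ.IsEquiv ρ' := by
  haveI : Module.Finite k ρ.V := Module.finite_of_finrank_eq_succ ρ.finrank_eq
  haveI : Module.Finite k ρ'.V := Module.finite_of_finrank_eq_succ ρ'.finrank_eq
  let b : Basis (Fin 2) k ρ.V := Module.finBasisOfFinrankEq k ρ.V ρ.finrank_eq
  let b' : Basis (Fin 2) k ρ'.V := Module.finBasisOfFinrankEq k ρ'.V ρ'.finrank_eq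
  obtain ⟨f, hf⟩ := exists_algEquiv_of_trace
    (r := (LinearMap.toMatrixAlgEquiv b).toMonoidHom.comp ρ.ρ)
    (r' := (LinearMap.toMatrixAlgEquiv b').toMonoidHom.comp ρ'.ρ)
    (Fermat.Agent.Deform.span_matrix_eq_top ρ habs b) fun σ =>
      (LinearMap.trace_eq_matrix_trace k b _).symm.trans
        ((htr σ).trans (LinearMap.trace_eq_matrix_trace k b' _))
  obtain ⟨T, hT⟩ := ((LinearMap.toMatrixAlgEquiv b).trans
    (f.trans (LinearMap.toMatrixAlgEquiv b').symm)).eq_linearEquivConjAlgEquiv
  refine ⟨⟨T, fun σ x => ?_⟩⟩
  have e := LinearMap.congr_fun (AlgEquiv.congr_fun hT (ρ.ρ σ)) (T x)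
  rw [LinearEquiv.conjAlgEquiv_apply] at e
  simp only [AlgEquiv.trans_apply, LinearMap.comp_apply, LinearEquiv.coe_coe,
    LinearEquiv.symm_apply_apply] at e
  rw [← e]
  show (LinearMap.toMatrixAlgEquiv b').symm (f _) (T x) = _
  rw [show f (LinearMap.toMatrixAlgEquiv b (ρ.ρ σ)) = LinearMap.toMatrixAlgEquiv b' (ρ'.ρ σ) from
    hf σ, AlgEquiv.symm_apply_apply]

end Fermat.Agent.Lifting

end
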