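import Fermat.Agent.Lifting.Galois.SignedLevel
import Fermat.Agent.Lifting.Assembly.CongruenceFactor
import Fermat.Agent.Lifting.Setup.Case

/-!
# The signed condition at the raised levels of a context

For a representation over the algebra of `C.level b T` with the operators as traces of Frobenius
the signed conditions of `C.cond b T` hold; with the other conditions this is `C.cond b T`.
-/

set_option autoImplicit false
set_option linter.overlappingInstances false
set_option linter.style.haveILetI false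

noncomputable section

namespace Fermat.Agent.Lifting

open IsLocalRing _root_.Module Fermat.Agent.Deform
open Fermat.Agent.RT (halfInvExp)
open Fermat.Agent.RT.GammaH Fermat.Agent.Lifting.Degeneracy

variable {O : Type} [CommRing O] [IsDomain O] [IsDiscreteValuationRing O]
  [IsAdicComplete (maximalIdeal O) O] [Finite (ResidueField O)] [CharZero O]
  {p : ℕ} [Fact p.Prime] [CharP (ResidueField O) p] (C : Ctx O p) {b : Bool} {T : Finset ℕ}
  {Δ : Type} [CommGroup Δ] [Fintype Δ] [NeZero (C.level b T)]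
  {ψ : (ZMod (C.level b T))ˣ →* Δ} {S : Finset ℕ} {K : Subgroup (ZMod (C.level b T))ˣ} {e : ℕ}
  {hK : TwistSub (C.level b T) K e}

/-- **The signed condition at the raised primes.** -/
theorem Ctx.isSignedAt_levelT (hT : ∀ q ∈ T, q.Prime) (hs : Module.Setup p ψ S C.abar)
    (hKP : K = diaSub (fullWeight p T) (C.level b T)) (hKψ : K = ψ.ker) (he : e = halfInvExp Δ)
    (hbad : C.badSet ⊆ S)
    [Nontrivial (wEigen S C.abar hK T C.eps)] [IsLocalRing (levelT S C.abar hK T C.eps)]
    [IsReduced (levelT S C.abar hK T C.eps)]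
    (hA : IsResAlg O (levelT S C.abar hK T C.eps))
    [IsLocalHom (algebraMap O (levelT S C.abar hK T C.eps))]
    (ρ : GaloisRepAdic (levelT S C.abar hK T C.eps))
    (hres : ρ.residual.IsEquiv
      (C.ρbar.baseChangeAlong (ResidueField.map (algebraMap O (levelT S C.abar hK T C.eps)))))
    (htr : ∀ ℓ : ℕ, ℓ.Prime → ℓ ∉ S → ∀ P : ValuationSubring (AlgebraicClosure ℚ),
      P.LiesOverPrime ℓ → ∀ σ : Gal, P.IsFrobeniusAt σ ℓ →
        ρ.trace σ = levelOp S C.abar hK T C.eps ℓ)
    {q : ℕ} (hqT : q ∈ T) (hqp : q ≠ p) (hq1 : q % p ≠ 1) : IsSignedAt ρ q (C.sgn q) := by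
  have hq := hT q hqT
  have hqN : q ∣ C.level b T :=
    (Finset.dvd_prod_of_mem (fun r => r) hqT).trans (dvd_mul_left _ _)
  have h := Assembly.exists_alLevel hs.sqfree hq hqN
  refine Lifting.isSignedAt_levelT hs hKψ he (hbad (C.mem_badSet (Fact.out : p.Prime) (b := b) (Or.inl rfl)))
    (Curve.isAbsolutelyIrreducible_residual C.delta_ne C.p_ne_two C.irreducible)
    (Curve.hasCharpolys_residual C.delta_ne (hbad (C.mem_badSet (Fact.out : p.Prime) (b := b) (Or.inl rfl)))
      fun r hr hd => hbad (C.mem_badSet hr (b := b) (Or.inr (Or.inr hd))))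
    hA ρ hres htr hqT hqp h (fun u hu => ?_)
    (by rw [pow_two, C.sgn_mul_self]) rfl
  rw [← MonoidHom.mem_ker, ← hKψ, hKP]
  intro r hr hrp
  rcases hrp.dvd_mul.1 (h.eq ▸ hr) with hrM | hrq
  · have e1 : ZMod.unitsMap hr u = ZMod.unitsMap hrM (h.toM u) := by
      rw [ALLevel.toM, ← MonoidHom.comp_apply, ZMod.unitsMap_comp]
    rw [e1, hu, map_one, one_pow]
  · obtain rfl := (Nat.prime_dvd_prime_iff_eq hrp hq).1 hrq
    have : Fact r.Prime := ⟨hq⟩
    rw [Assembly.fullWeight_eq_one hq hq1, Nat.div_one, ZMod.units_pow_card_sub_one_eq_one]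

/-- The condition of a raised level from its parts. -/
theorem Ctx.cond_levelT (hT : ∀ q ∈ T, q.Prime) (hs : Module.Setup p ψ S C.abar)
    (hKP : K = diaSub (fullWeight p T) (C.level b T)) (hKψ : K = ψ.ker) (he : e = halfInvExp Δ)
    (hbad : C.badSet ⊆ S)
    [Nontrivial (wEigen S C.abar hK T C.eps)] [IsLocalRing (levelT S C.abar hK T C.eps)]
    [IsReduced (levelT S C.abar hK T C.eps)]
    (hA : IsResAlg O (levelT S C.abar hK T C.eps))
    [IsLocalHom (algebraMap O (levelT S C.abar hK T C.eps))]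
    (ρ : GaloisRepAdic (levelT S C.abar hK T C.eps))
    (hres : ρ.residual.IsEquiv
      (C.ρbar.baseChangeAlong (ResidueField.map (algebraMap O (levelT S C.abar hK T C.eps)))))
    (htr : ∀ ℓ : ℕ, ℓ.Prime → ℓ ∉ S → ∀ P : ValuationSubring (AlgebraicClosure ℚ),
      P.LiesOverPrime ℓ → ∀ σ : Gal, P.IsFrobeniusAt σ ℓ →
        ρ.trace σ = levelOp S C.abar hK T C.eps ℓ)
    (hdet : ρ.DetIsCyclotomic p) (hkind : (C.kind b T).Holds ρ p)
    (hur : ∀ q : ℕ, q.Prime → q ∉ insert p (C.N0 ∪ T) → ρ.IsUnramifiedAt q)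
    (hun : ∀ q ∈ C.N0, q.Prime → q ≠ p → ρ.IsUnipotentOnInertiaAt q) :
    C.cond b T ρ :=
  ⟨hdet, hkind, hur, hun,
    fun _ hqT _ hqp hq1 => C.isSignedAt_levelT hT hs hKP hKψ he hbad hA ρ hres htr hqT hqp hq1⟩

end Fermat.Agent.Lifting
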