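import Fermat.Agent.Lifting.Galois.LevelRep
import Fermat.Agent.Lifting.Galois.SignedCtx
import Fermat.Agent.Lifting.Assembly.Raised
import Fermat.Agent.Lifting.Assembly.LevelAlg
import Fermat.Agent.Lifting.TW.Primes

/-!
# The representations and the Hecke systems of the levels of a context

`Ctx.exists_levelRep_cond` gives the representation of the type `C.cond b T` over the algebra of
`C.level b T` when every prime of `T` other than `p` is `1` modulo `p`: the minimal level and the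
Taylor–Wiles levels. `Ctx.exists_levelRep_raised` is the one of the raised levels.
`Ctx.exists_levelSystem_tw` is the Hecke system of a Taylor–Wiles level.
-/

set_option autoImplicit false
set_option linter.overlappingInstances false
set_option linter.style.haveILetI false

noncomputable section

namespace Fermat.Agent.Lifting

open IsLocalRing Fermat.Agent.Deform
open Fermat.Agent.RT (halfInvExp)
open Fermat.Agent.RT.GammaH Fermat.Agent.Lifting.Degeneracy

variable {O : Type} [CommRing O] [IsDomain O] [IsDiscreteValuationRing O]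
  [IsAdicComplete (maximalIdeal O) O] [Finite (ResidueField O)] [CharZero O]
  {p : ℕ} [Fact p.Prime] [CharP (ResidueField O) p] (C : Ctx O p) {b : Bool} {T : Finset ℕ}
  {N : ℕ} [NeZero N] {S : Finset ℕ} {K : Subgroup (ZMod N)ˣ} {e : ℕ} {hK : TwistSub N K e}
  {T' : Finset ℕ} {eps : ℕ → O}

/-- The algebra of a level of a context is reduced. -/
theorem Ctx.isReduced_levelT (hT : C.Admissible b T) {P : ℕ → ℕ} (hP : IsWeight p T P)
    (hbad : C.badSet ⊆ S) (hTS : T ⊆ S) (hN : N = C.level b T) (hKP : K = diaSub P N) :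
    IsReduced (levelT S C.abar hK T' eps) := by
  have hs := C.moduleSetup hT hP hbad hTS hN
  subst hKP
  exact Assembly.isReduced_levelT hs.primes C.abar hK T' eps hs.sqfree
    (Assembly.card_quotient_diaSub hP hs.sqfree ▸
      odd_prod_weight hP (Fact.out : p.Prime) C.p_ne_two _) hs.notEis

/-- **The representation of a level whose signed conditions are empty.** -/
theorem Ctx.exists_levelRep_cond (hB : C.Base b) (hT : C.Admissible b T) {P : ℕ → ℕ}
    (hP : IsWeight p T P) (hpT : p ∈ T → (p : ℤ) ∣ C.W.Δ) (hT1 : ∀ q ∈ T, q ≠ p → q % p = 1)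
    (hbad : C.badSet ⊆ S) (hTS : T ⊆ S) (hN : N = C.level b T) (hKP : K = diaSub P N)
    (he : e = weightExp P N) [Nontrivial (wEigen S C.abar hK T' eps)]
    [IsLocalRing (levelT S C.abar hK T' eps)]
    (hA : IsResAlg O (levelT S C.abar hK T' eps)) :
    ∃ ρ, Assembly.IsLevelRep hA C.ρbar (C.cond b T) ρ := by
  subst hN
  have hs := C.moduleSetup hT hP hbad hTS rfl
  haveI := hA.isLocalHom
  letI : Fintype ((ZMod (C.level b T))ˣ ⧸ diaSub P (C.level b T)) := Fintype.ofFinite _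
  obtain ⟨ρ, h1, h2, h3, h4, h5, h6⟩ := C.exists_levelRep hB hT hP hpT hs hKP
    (hKP.trans (QuotientGroup.ker_mk' _).symm)
    (he.trans (Assembly.weightExp_eq_halfInvExp hP hs.sqfree)) hbad hA
  exact ⟨ρ, h1, ⟨h2, h3, h4, h5, fun q hq _ hqp hq1 => absurd (hT1 q hq hqp) hq1⟩, h6⟩

/-- **The representation of the minimal level.** -/
theorem Ctx.exists_levelRep_minimal (hB : C.Base b) (hbad : C.badSet ⊆ S)
    {L : ℕ} [NeZero L] (hL : L = C.baseLevel b) {hK₀ : TwistSub L (⊤ : Subgroup (ZMod L)ˣ) 0}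
    [Nontrivial (wEigen S C.abar hK₀ T' eps)] [IsLocalRing (levelT S C.abar hK₀ T' eps)]
    (hA : IsResAlg O (levelT S C.abar hK₀ T' eps)) :
    ∃ ρ, Assembly.IsLevelRep hA C.ρbar (C.cond b ∅) ρ :=
  C.exists_levelRep_cond hB ⟨by simp, by simp, by simp⟩
    (P := fun _ => 1) ⟨fun _ => ⟨0, rfl⟩, by simp, fun _ _ => rfl⟩ (by simp) (by simp) hbad
    (Finset.empty_subset _) (by rw [Ctx.level, Finset.prod_empty, mul_one, hL])
    (diaSub_one L).symm (by simp [weightExp]) hA

/-- **The representation of a raised level.** -/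
theorem Ctx.exists_levelRep_raised (hB : C.Base b) (hT : C.Admissible b T)
    (hpT : p ∈ T → (p : ℤ) ∣ C.W.Δ) (hbad : C.badSet ⊆ S) (hTS : T ⊆ S) (hN : N = C.level b T)
    {hK : TwistSub N (diaSub (fullWeight p T) N) (weightExp (fullWeight p T) N)}
    [Nontrivial (wEigen S C.abar hK T C.eps)] [IsLocalRing (levelT S C.abar hK T C.eps)]
    (hA : IsResAlg O (levelT S C.abar hK T C.eps)) :
    ∃ ρ, Assembly.IsLevelRep hA C.ρbar (C.cond b T) ρ := by
  have hP := isWeight_fullWeight p T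
  haveI := C.isReduced_levelT (hK := hK) (T' := T) (eps := C.eps) hT hP hbad hTS hN rfl
  subst hN
  have hs := C.moduleSetup hT hP hbad hTS rfl
  haveI := hA.isLocalHom
  letI : Fintype ((ZMod (C.level b T))ˣ ⧸ diaSub (fullWeight p T) (C.level b T)) :=
    Fintype.ofFinite _
  have hker := (QuotientGroup.ker_mk' (diaSub (fullWeight p T) (C.level b T))).symm
  have he := Assembly.weightExp_eq_halfInvExp hP hs.sqfree
  obtain ⟨ρ, h1, h2, h3, h4, h5, h6⟩ := C.exists_levelRep hB hT hP hpT hs rfl hker he hbad hA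
  exact ⟨ρ, h1, C.cond_levelT hT.prime hs rfl hker he hbad hA ρ h1 h6 h2 h3 h4 h5, h6⟩

/-- The localised part at a level is nonzero if that at the minimal level is. -/
theorem Ctx.nontrivial_level (hT : C.Admissible b T) {P : ℕ → ℕ} (hP : IsWeight p T P)
    (hbad : C.badSet ⊆ S) (hTS : T ⊆ S) (hN : N = C.level b T) {L : ℕ} [NeZero L]
    (hL : L = C.baseLevel b) [Nontrivial (locSub O S C.abar (⊤ : Subgroup (ZMod L)ˣ))] :
    Nontrivial (locSub O S C.abar (diaSub P N)) := by
  have hK := twistSub_weightExp hP (Fact.out : p.Prime) C.p_ne_two (NeZero.ne N)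
  obtain ⟨R⟩ := C.exists_levelRaiseMaps hT hN hL (hN ▸ hL ▸ dvd_mul_right _ _)
    (fun v hv h => C.mem_of_dvd_level hT hbad hTS hv (hN ▸ h)) hP hK
  haveI : Nontrivial (wEigen S C.abar (twistSub_top L 0) ∅ C.eps) := by
    rw [wEigen_empty]; infer_instance
  haveI := Assembly.nontrivial_raised R (hK₀ := twistSub_top L 0) (eps₀ := C.eps)
  obtain ⟨x, hx⟩ := exists_ne (0 : wEigen S C.abar hK T C.eps)
  exact nontrivial_of_ne ⟨x.1, x.2.1⟩ 0 fun h =>
    hx (Subtype.ext ((congrArg (fun z : locSub O S C.abar (diaSub P N) => z.1) h : _) : x.1 = 0))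

/-- **The Hecke system of a Taylor–Wiles level.** -/
theorem Ctx.exists_levelSystem_tw (hB : C.Base b) {Q : Finset ℕ} (hQ : C.Admissible b Q)
    (hpQ : p ∉ Q) {n : ℕ} (hn : ∀ q ∈ Q, p ^ n ∣ q - 1) (hQ1 : ∀ q ∈ Q, q % p = 1)
    (hbad : C.badSet ⊆ S) (hQS : Q ⊆ S) {L : ℕ} [NeZero L] (hL : L = C.baseLevel b)
    (hN : N = L * ∏ q ∈ Q, q) [Nontrivial (locSub O S C.abar (⊤ : Subgroup (ZMod L)ˣ))] :
    ∀ K' : Subgroup (ZMod N)ˣ, K' = diaSub (twWeight p n Q) N →
      ∃ (H₁ : Assembly.HeckeSystem O C.ρbar (liftCondition O p (C.kind b ∅) C.N0 Q C.sgn) S)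
        (e₁ : H₁.M ≃ₗ[O] locSub O S C.abar K'),
        ∀ (ℓ : {ℓ : ℕ // ℓ.Prime ∧ ℓ ∉ S}) (hℓ : ℓ.1.Coprime N) (x : H₁.M),
          (e₁ (H₁.op ℓ.1 • x) : HomMod O S K' O) =
            twEl O N S (weightExp (twWeight p n Q) N) ℓ hℓ • (e₁ x : HomMod O S K' O) := by
  rintro K' rfl
  have hP := isWeight_twWeight p n Q hn
  have hN' : N = C.level b Q := by rw [hN, hL]; rfl
  have hS : ∀ v : ℕ, v.Prime → v ∣ N → v ∈ S := fun v hv h =>
    C.mem_of_dvd_level hQ hbad hQS hv (hN' ▸ h)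
  have hK := twistSub_weightExp hP (Fact.out : p.Prime) C.p_ne_two (NeZero.ne N)
  haveI := C.nontrivial_level hQ hP hbad hQS hN' hL
  haveI : Nontrivial (wEigen S C.abar hK ∅ C.eps) := by rw [wEigen_empty]; infer_instance
  haveI := Assembly.isLocalRing_levelT hS C.abar hK ∅ C.eps
  haveI := C.isReduced_levelT (hK := hK) (T' := ∅) (eps := C.eps) hQ hP hbad hQS hN' rfl
  have hA := Assembly.isResAlg_levelT hS C.abar hK ∅ C.eps
  obtain ⟨ρ, hρ⟩ := C.exists_levelRep_cond hB hQ hP (fun h => absurd h hpQ)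
    (fun q hq _ => hQ1 q hq) hbad hQS hN' rfl rfl hA
  rw [C.cond_eq_of_notMem b hpQ] at hρ
  refine ⟨Assembly.levelSystem hS hA ρ hρ, LinearEquiv.ofEq _ _ (wEigen_empty S C.abar hK C.eps),
    fun ℓ hℓ x => ?_⟩
  exact Assembly.coe_levelOp_smul hS ℓ.2.1 ℓ.2.2 x

end Fermat.Agent.Lifting
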