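import Fermat.Agent.Lifting.Galois.TraceRing
import Fermat.Agent.Lifting.Galois.Invariance
import Fermat.Agent.RT.Glue.Approx
import Fermat.Agent.RT.Glue.FlatDescent
import Fermat.Agent.Arith.Chebotarev.Main

/-!
# A representation is defined over the algebra generated by the traces of Frobenius elements
-/

set_option autoImplicit false
set_option linter.style.haveILetI false

noncomputable section

namespace Fermat.Agent.Lifting

open IsLocalRing Module Fermat.Agent.Deform
open scoped TensorProduct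

variable {O : Type} [CommRing O] [IsDomain O] [IsDiscreteValuationRing O]
  {A : Type} [CommRing A] [IsLocalRing A] [Algebra O A] [Module.Finite O A]

/-- A submodule of a finite algebra is closed. -/
theorem mem_of_forall_exists_sub_mem_pow (h : IsResAlg O A) (S : Submodule O A) {x : A}
    (hx : ∀ n : ℕ, ∃ y ∈ S, x - y ∈ maximalIdeal A ^ n) : x ∈ S := by
  haveI := h.isLocalHom
  obtain ⟨j, hj⟩ := RT.Assembly.exists_pow_le_map (O := O) (A := A)
  have hmem : S.mkQ x ∈ ⨅ n : ℕ, maximalIdeal O ^ n • (⊤ : Submodule O (A ⧸ S)) := by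
    refine Submodule.mem_iInf _ |>.mpr fun n => ?_
    obtain ⟨y, hy, hxy⟩ := hx (j * n)
    have hxm : x - y ∈ maximalIdeal O ^ n • (⊤ : Submodule O A) := by
      rw [Ideal.smul_top_eq_map, Submodule.restrictScalars_mem, Ideal.map_pow]
      rw [pow_mul] at hxy
      exact Ideal.pow_right_mono hj n hxy
    have h1 := Submodule.mem_map_of_mem (f := S.mkQ) hxm
    rw [Submodule.map_smul''] at h1
    have h2 : S.mkQ (x - y) = S.mkQ x := by
      rw [map_sub, S.mkQ_apply y, (Submodule.Quotient.mk_eq_zero S).mpr hy, sub_zero]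
    exact Submodule.smul_mono le_rfl le_top (h2 ▸ h1)
  rw [Ideal.iInf_pow_smul_eq_bot_of_isLocalRing _ (maximalIdeal.isMaximal O).ne_top,
    Submodule.mem_bot] at hmem
  exact (Submodule.Quotient.mk_eq_zero S).mp hmem

/-- Traces of a continuous representation lie in every submodule containing the traces of almost
all Frobenius elements. -/
theorem trace_mem_of_frobenius (h : IsResAlg O A) {r : Gal →* M2 A} (hr : IsCont r)
    (S : Submodule O A) (S0 : Finset ℕ)
    (hF : ∀ ℓ : ℕ, ℓ.Prime → ℓ ∉ S0 → ∀ P : ValuationSubring (AlgebraicClosure ℚ),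
      P.LiesOverPrime ℓ → ∀ σ : Gal, P.IsFrobeniusAt σ ℓ → (r σ).trace ∈ S) (g : Gal) :
    (r g).trace ∈ S := by
  refine mem_of_forall_exists_sub_mem_pow h S fun n => ?_
  obtain ⟨L, hL, hL'⟩ := hr n
  haveI := hL
  set q := Ideal.Quotient.mk (maximalIdeal A ^ n)
  obtain ⟨ℓ, hℓ, hℓS, P, hP, σ, hσ, heq⟩ :=
    Arith.Chebotarev.exists_frobenius_eq (mapM q r) L (fun σ hσ => by
      ext i j
      rw [mapM_apply, show (1 : M2 (A ⧸ maximalIdeal A ^ n)) i j = q ((1 : M2 A) i j) by
        simp only [Matrix.one_apply, apply_ite q, map_one, map_zero], Ideal.Quotient.eq]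
      exact hL' σ hσ i j) g S0
  refine ⟨(r σ).trace, hF ℓ hℓ hℓS P hP σ hσ, ?_⟩
  have e : ∀ i, r g i i - r σ i i ∈ maximalIdeal A ^ n := fun i =>
    Ideal.Quotient.eq.mp (congrFun (congrFun heq i) i).symm
  rw [Matrix.trace_fin_two, Matrix.trace_fin_two, add_sub_add_comm]
  exact add_mem (e 0) (e 1)

/-- The representation over a subalgebra containing the traces of almost all Frobenius
elements. -/
theorem exists_rep_subalgebra [IsAdicComplete (maximalIdeal O) O] {W : Rigid O}
    {ρbar : ResidualGaloisRep (ResidueField O)} {bb : Basis (Fin 2) (ResidueField O) ρbar.V}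
    (hW : W.rb = matRes ρbar bb) (habs : ρbar.IsAbsolutelyIrreducible) (h : IsResAlg O A)
    (h2 : IsUnit (2 : A)) (ρ : GaloisRepAdic A) [IsLocalHom (algebraMap O A)]
    (hres : ρ.residual.IsEquiv (ρbar.baseChangeAlong (ResidueField.map (algebraMap O A))))
    (S : Subalgebra O A) [IsLocalRing S] [IsLocalHom (algebraMap O S)] (S0 : Finset ℕ)
    (hF : ∀ ℓ : ℕ, ℓ.Prime → ℓ ∉ S0 → ∀ P : ValuationSubring (AlgebraicClosure ℚ),
      P.LiesOverPrime ℓ → ∀ σ : Gal, P.IsFrobeniusAt σ ℓ →
        LinearMap.trace A ρ.V (ρ.ρ σ) ∈ S) :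
    ∃ r : GaloisRepAdic S,
      r.residual.IsEquiv (ρbar.baseChangeAlong (ResidueField.map (algebraMap O S))) ∧
      (r.baseChangeAlong (S.val : S →+* A) (RT.Assembly.isLocalHom_subalgebra_val S)).IsEquiv
        ρ := by
  haveI : IsAdicComplete (maximalIdeal A) A := isAdicComplete_of_module_finite (𝒪 := O)
  obtain ⟨b, hl⟩ := exists_lifts_basis hW h ρ hres
  obtain ⟨P, hlP, hnP⟩ := exists_normal hl
  set r1 := conjM P (matOf ρ b)
  have hc1 : IsCont r1 := (isCont_matOf ρ b).conj P
  have htr1 : ∀ σ, (r1 σ).trace = LinearMap.trace A ρ.V (ρ.ρ σ) := fun σ => by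
    show ((↑P⁻¹ : M2 A) * matOf ρ b σ * (P : M2 A)).trace = _
    rw [Matrix.trace_mul_comm, ← mul_assoc, Units.mul_inv, one_mul,
      LinearMap.trace_eq_matrix_trace A b]
    rfl
  have htr : ∀ σ, (r1 σ).trace ∈ S := trace_mem_of_frobenius h hc1 (Subalgebra.toSubmodule S) S0
    fun ℓ hℓ hℓS Q hQ σ hσ => by
      rw [htr1]
      exact hF ℓ hℓ hℓS Q hQ σ hσ
  have hspan : Submodule.span (ResidueField O) (Set.range W.rb) = ⊤ := by
    rw [hW]
    exact span_matrix_eq_top ρbar habs bb
  have hent : ∀ σ i j, r1 σ i j ∈ S := entries_mem_of_trace_mem hlP hnP hspan h2 htr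
  have hcS : IsCont (corestrict S r1 hent) := RT.Assembly.isCont_corestrict h S hc1 hent
  refine ⟨toRep (corestrict S r1 hent) hcS, ?_, ?_⟩
  · refine residual_isEquiv_of_lifts hW (RT.Assembly.isResAlg_subalgebra h S) _
      (Pi.basisFun S (Fin 2)) ?_
    rw [matOf_toRep]
    exact RT.Assembly.lifts_corestrict S hlP hent
  · exact isEquiv_trans (isEquiv_baseChangeAlong_toRep _ _ _ hcS)
      (isEquiv_trans (isEquiv_toRep_congr (mapM_corestrict S r1 hent) _ hc1)
        (isEquiv_trans (isEquiv_symm (isEquiv_conj (isCont_matOf ρ b) P))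
          (isEquiv_symm (isEquiv_toRep_matOf ρ b))))

section Descent

variable (S : Subalgebra O A) [IsLocalRing S] {r : GaloisRepAdic S} {ρ : GaloisRepAdic A}
  (he : (r.baseChangeAlong (S.val : S →+* A)
    (RT.Assembly.isLocalHom_subalgebra_val S)).IsEquiv ρ)

include he in
theorem coe_trace_subalgebra (σ : Gal) :
    ((LinearMap.trace S r.V (r.ρ σ) : S) : A) = LinearMap.trace A ρ.V (ρ.ρ σ) := by
  obtain ⟨e⟩ := he
  rw [trace_congr e]
  letI := (S.val : S →+* A).toAlgebra
  exact (LinearMap.trace_baseChange (r.ρ σ) A).symm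

include he in
theorem isUnramifiedAt_subalgebra {q : ℕ} (h : ρ.IsUnramifiedAt q) : r.IsUnramifiedAt q :=
  isUnramifiedAt_of_baseChange Subtype.val_injective (isUnramifiedAt_congr (isEquiv_symm he) h)

include he in
theorem isUnipotentOnInertiaAt_subalgebra {q : ℕ} (h : ρ.IsUnipotentOnInertiaAt q) :
    r.IsUnipotentOnInertiaAt q :=
  isUnipotentOnInertiaAt_of_baseChange Subtype.val_injective
    (isUnipotentOnInertiaAt_congr (isEquiv_symm he) h)

include he in
theorem isFlatAt_subalgebra {p : ℕ} (h : ρ.IsFlatAt p) : r.IsFlatAt p := by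
  haveI := RT.Assembly.finite_subalgebra S
  haveI : IsNoetherianRing S := IsNoetherianRing.of_finite O S
  haveI : Module.Finite S A := Module.Finite.of_restrictScalars_finite O S A
  exact RT.Glue.isFlatAt_of_baseChange _ (RT.Assembly.isLocalHom_subalgebra_val S)
    Subtype.val_injective ((RingHom.finite_algebraMap).mpr ‹Module.Finite S A›) r
    (isFlatAt_congr (isEquiv_symm he) h)

include he in
theorem detIsCyclotomic_subalgebra [CharZero O] [IsLocalHom (algebraMap O S)] {p : ℕ}
    [Fact p.Prime] (hp : (p : O) ∈ maximalIdeal O) (h : ρ.DetIsCyclotomic p) :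
    r.DetIsCyclotomic p := by
  refine ⟨?_, fun n σ a ha => ?_⟩
  · rw [← map_natCast (algebraMap O S)]
    exact map_nonunit (algebraMap O S) _ hp
  haveI := RT.Assembly.finite_subalgebra S
  haveI : IsNoetherian O A := isNoetherian_of_isNoetherianRing_of_finite O A
  set M : Submodule O A := Subalgebra.toSubmodule S
  have hpn : ((p ^ n : ℕ) : O) ≠ 0 := Nat.cast_ne_zero.mpr (pow_ne_zero _ (Fact.out : p.Prime).ne_zero)
  obtain ⟨ϖ, hϖ⟩ := IsDiscreteValuationRing.exists_irreducible O
  obtain ⟨j, hj⟩ := IsDiscreteValuationRing.associated_pow_irreducible hpn hϖ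
  obtain ⟨k, hk⟩ := (maximalIdeal O).exists_pow_inf_eq_pow_smul M
  set N := n + (j + k)
  obtain ⟨b, hb⟩ := RT.Glue.exists_exponent (p := p) σ N
  have hb' : ∀ μ : AlgebraicClosure ℚ, μ ^ p ^ n = 1 → σ μ = μ ^ b := fun μ hμ =>
    hb μ (by rw [show N = n + (j + k) from rfl, pow_add, pow_mul, hμ, one_pow])
  have hab : ((b : S) - (a : S)) ∈ Ideal.span {((p ^ n : ℕ) : S)} := by
    rw [Nat.cast_pow]
    exact RT.Glue.natCast_congr_of_roots hb' ha
  rw [← sub_add_sub_cancel _ (b : S) (a : S)]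
  refine Ideal.add_mem _ ?_ hab
  set x : S := LinearMap.det (r.ρ σ) - (b : S)
  have hxA : (x : A) ∈ Ideal.span {((p ^ N : ℕ) : A)} := by
    obtain ⟨e⟩ := he
    have h1 := h.2 N σ b hb
    rw [det_congr e, CFT.Tangent.det_baseChangeAlong] at h1
    simpa [x] using h1
  have hxm : (x : A) ∈ maximalIdeal O ^ N • (⊤ : Submodule O A) := by
    rw [Ideal.smul_top_eq_map, Submodule.restrictScalars_mem]
    refine (Ideal.span_singleton_le_iff_mem _).mpr ?_ hxA
    rw [Nat.cast_pow, ← map_natCast (algebraMap O A), ← map_pow]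
    exact Ideal.mem_map_of_mem _ (Ideal.pow_mem_pow hp N)
  have hmem : (x : A) ∈ maximalIdeal O ^ N • (⊤ : Submodule O A) ⊓ M := ⟨hxm, x.2⟩
  rw [hk N (by omega)] at hmem
  have hmem' : (x : A) ∈ maximalIdeal O ^ (N - k) • M := Submodule.smul_mono le_rfl inf_le_right hmem
  have hmap : maximalIdeal O ^ (N - k) • M =
      (maximalIdeal O ^ (N - k) • (⊤ : Submodule O S)).map S.val.toLinearMap := by
    rw [Submodule.map_smul'', Submodule.map_top]
    congr 1
    ext y
    simp [M]
  rw [hmap] at hmem'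
  obtain ⟨y, hy, hyx⟩ := hmem'
  obtain rfl : y = x := Subtype.ext hyx
  rw [Ideal.smul_top_eq_map, SetLike.mem_coe, Submodule.restrictScalars_mem] at hy
  have hle : maximalIdeal O ^ (N - k) ≤ Ideal.span {((p ^ n : ℕ) : O)} := by
    rw [Ideal.span_singleton_eq_span_singleton.mpr hj, ← Ideal.span_singleton_pow, ← hϖ.maximalIdeal_eq]
    exact Ideal.pow_le_pow_right (by omega)
  have h3 := Ideal.map_mono (f := algebraMap O S) hle hy
  rwa [Ideal.map_span, Set.image_singleton, map_natCast] at h3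

end Descent

end Fermat.Agent.Lifting
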