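import Fermat.Agent.Lifting.Galois.SubRep
import Fermat.Agent.Lifting.Deform.Condition
import Fermat.Agent.RT.Lower.AtP
import Fermat.Agent.RT.Lower.Normalise
import Fermat.Agent.RT.Lower.Places
import Fermat.Agent.OrdinaryAtP.GlueStrict
import Fermat.Agent.OrdinaryAtP.Flat.Ordinary
import Fermat.Agent.OrdinaryAtP.Flat.StrictLevels

/-!
# Ordinarity of a glued representation and passage to a residual algebra

At a point of level prime to `p` residual ordinarity gives ordinarity, at a level exactly divisible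
by `p` the point is strictly ordinary. The conditions descend to the algebra of the twisted
operators and push forward to its quotients.
-/

set_option autoImplicit false
set_option linter.style.haveILetI false

noncomputable section

namespace Fermat.Agent.Lifting

open IsLocalRing Module Fermat.Agent.Deform
open scoped TensorProduct

/-- An absolutely irreducible representation spans the endomorphisms. -/
theorem span_range_eq_top_of_absIrr {k : Type} [Field k] (r : ResidualGaloisRep k)
    (habs : r.IsAbsolutelyIrreducible) : Submodule.span k (Set.range r.ρ) = ⊤ := by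
  let b := Module.finBasisOfFinrankEq k r.V r.finrank_eq
  have h := span_matrix_eq_top r habs b
  apply Submodule.map_injective_of_injective
    (f := (LinearMap.toMatrixAlgEquiv b).toLinearEquiv.toLinearMap)
    (LinearMap.toMatrixAlgEquiv b).toLinearEquiv.injective
  rw [Submodule.map_span, ← Set.range_comp, Submodule.map_top, LinearEquiv.range]
  exact h

section Ordinary

variable {A B : Type} [CommRing A] [IsLocalRing A] [CommRing B] [IsLocalRing B]
  {ρ ρ' : GaloisRepAdic A} {p : ℕ} [Fact p.Prime] {φ : A →+* B} {hφ : IsLocalHom φ}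

/-- Ordinarity is invariant under equivalence. -/
theorem isOrdinaryAt_congr (he : ρ.IsEquiv ρ') (h : ρ.IsOrdinaryAt p) : ρ'.IsOrdinaryAt p := by
  obtain ⟨e⟩ := he
  intro P hP
  obtain ⟨L, ⟨b, hb⟩, hD, hI⟩ := h P hP
  refine ⟨L.map e.toLinearEquiv.toLinearMap, ⟨b.map e.toLinearEquiv, ?_⟩, ?_, fun σ hσ v => ?_⟩
  · rw [hb, Submodule.map_span, Set.image_singleton]
    rfl
  · rintro σ hσ _ ⟨w, hw, rfl⟩
    exact ⟨_, hD σ hσ w hw, e.map_apply σ w⟩
  · obtain ⟨w, rfl⟩ := e.toLinearEquiv.surjective v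
    exact ⟨_, hI σ hσ w, by
      show e.toLinearEquiv (ρ.ρ σ w - w) = _
      rw [map_sub, e.map_apply]⟩

/-- Ordinarity descends along injections. -/
theorem isOrdinaryAt_of_baseChange (hinj : Function.Injective φ) (hp2 : p ≠ 2)
    (hdet : ρ.DetIsCyclotomic p) (h : (ρ.baseChangeAlong φ hφ).IsOrdinaryAt p) :
    ρ.IsOrdinaryAt p := by
  refine isOrdinaryAt_of_ordEq (O := ℤ) hp2 hdet fun P => ?_
  obtain ⟨h1, h2, h3⟩ := ordEq_of_isOrdinaryAt (O := ℤ) hp2
    (CFT.Tangent.DetIsCyclotomic.baseChange φ hφ hdet) h P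
  exact ⟨fun i => eq_zero_of_map φ hφ hinj _ ρ (h1 i), fun i => eq_zero_of_map φ hφ hinj _ ρ (h2 i),
    fun i => eq_zero_of_map φ hφ hinj _ ρ (h3 i)⟩

/-- Ordinarity is stable under change of the coefficients. -/
theorem isOrdinaryAt_baseChange (hp2 : p ≠ 2) (hdet : ρ.DetIsCyclotomic p)
    (h : ρ.IsOrdinaryAt p) : (ρ.baseChangeAlong φ hφ).IsOrdinaryAt p := by
  refine isOrdinaryAt_of_ordEq (O := ℤ) hp2
    (CFT.Tangent.DetIsCyclotomic.baseChange φ hφ hdet) fun P => ?_
  obtain ⟨h1, h2, h3⟩ := ordEq_of_isOrdinaryAt (O := ℤ) hp2 hdet h P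
  exact ⟨fun i => inSpan_zero_iff.mp (inSpan_map φ hφ _ ρ (inSpan_zero_iff.mpr (h1 i))),
    fun i => inSpan_zero_iff.mp (inSpan_map φ hφ _ ρ (inSpan_zero_iff.mpr (h2 i))),
    fun i => inSpan_zero_iff.mp (inSpan_map φ hφ _ ρ (inSpan_zero_iff.mpr (h3 i)))⟩

end Ordinary

section Points

variable {O : Type} [CommRing O] [IsDomain O] [IsDiscreteValuationRing O]
  [IsAdicComplete (maximalIdeal O) O] [Finite (ResidueField O)] [CharZero O]
  {p : ℕ} [Fact p.Prime]
  {L : ℕ} [NeZero L] {Δ : Type} [CommGroup Δ] [Finite Δ] {ψ : (ZMod L)ˣ →* Δ} {S : Finset ℕ}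
  {abar : ℕ → ResidueField O}
  {H : RT.HeckeModule L ψ S abar} {hS : ∀ q : ℕ, q.Prime → q ∣ L → q ∈ S}
  [IsLocalRing H.algebra] [IsLocalHom (algebraMap O H.algebra)]
  {D : ∀ (M : ℕ) [NeZero M], GaloisReps.HeckeGaloisModel M p}
  {pt : ∀ θ : H.algebra →ₐ[O] RT.Glue.KBar O, RT.Glue.Point (p := p) H hS θ.toRingHom}
  (G : RT.Glue.Glued D pt) (hp : (p : O) ∈ maximalIdeal O) (hΔ : IsPGroup p Δ)
  {ρbar : ResidualGaloisRep (ResidueField O)}
  (hG : G.rep.residual.IsEquiv
    (ρbar.baseChangeAlong (ResidueField.map (algebraMap O H.algebra))))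

include hG in
/-- The trace of the glued representation reduces to that of the residual one. -/
theorem residue_trace_glued (σ : Gal) :
    residue H.algebra (LinearMap.trace H.algebra G.rep.V (G.rep.ρ σ)) =
      ResidueField.map (algebraMap O H.algebra)
        (LinearMap.trace (ResidueField O) ρbar.V (ρbar.ρ σ)) := by
  obtain ⟨e⟩ := hG
  set φ := ResidueField.map (algebraMap O H.algebra)
  rw [← RT.Lower.trace_residual_glued G σ]
  have h2 : e.toLinearEquiv.conj (G.rep.residual.ρ σ) = (ρbar.baseChangeAlong φ).ρ σ :=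
    LinearMap.ext fun x => by
      rw [LinearEquiv.conj_apply_apply, e.map_apply, LinearEquiv.apply_symm_apply]
  rw [← LinearMap.trace_conj' (G.rep.residual.ρ σ) e.toLinearEquiv, h2]
  let : Algebra (ResidueField O) (ResidueField H.algebra) := φ.toAlgebra
  exact LinearMap.trace_baseChange (ρbar.ρ σ) (ResidueField H.algebra)

omit [IsAdicComplete (maximalIdeal O) O] [Finite (ResidueField O)] [CharZero O]
  [IsLocalHom (algebraMap O H.algebra)] in
/-- Two cyclotomic determinants over a field of characteristic `p` agree. -/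
theorem det_eq_of_detIsCyclotomic_field {k : Type} [Field k] {r r' : GaloisRepAdic k}
    (h : r.DetIsCyclotomic p) (h' : r'.DetIsCyclotomic p) (σ : Gal) :
    LinearMap.det (r.ρ σ) = LinearMap.det (r'.ρ σ) := by
  obtain ⟨a, ha⟩ := RT.Glue.exists_exponent (p := p) σ 1
  have h0 : Ideal.span {((p ^ 1 : ℕ) : k)} = ⊥ := by
    rw [pow_one, Ideal.span_singleton_eq_bot]
    exact (Submodule.mem_bot _).mp ((IsLocalRing.isField_iff_maximalIdeal_eq.mp
      (Field.toIsField k)).le h.1)
  have e1 := h.2 1 σ a ha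
  have e2 := h'.2 1 σ a ha
  rw [h0, Submodule.mem_bot, sub_eq_zero] at e1 e2
  rw [e1, e2]

include hp hΔ hG in
/-- The trace at a point reduces to that of the residual representation. -/
theorem residue_trace_adicRep (θ : H.algebra →ₐ[O] RT.Glue.KBar O)
    [IsLocalHom (algebraMap O (pt θ).R)] (σ : Gal) :
    residue (pt θ).R (LinearMap.trace (pt θ).R _ (((pt θ).adicRep (D := D)).ρ σ)) =
      ResidueField.map (algebraMap O (pt θ).R)
        (LinearMap.trace (ResidueField O) ρbar.V (ρbar.ρ σ)) := by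
  obtain ⟨c, hc⟩ := residue_surjective (LinearMap.trace (ResidueField O) ρbar.V (ρbar.ρ σ))
  have hm : LinearMap.trace H.algebra G.rep.V (G.rep.ρ σ) - algebraMap O H.algebra c ∈
      maximalIdeal H.algebra := by
    rw [← residue_eq_zero_iff, map_sub, residue_trace_glued G hG σ, ← hc,
      ResidueField.map_residue, sub_self]
  have h1 : LinearMap.trace (pt θ).R _ (((pt θ).adicRep (D := D)).ρ σ) -
      algebraMap O (pt θ).R c ∈ maximalIdeal (pt θ).R := by
    refine RT.Glue.mem_maximal_of_point hp hΔ (pt θ) hm ?_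
    rw [map_sub, map_sub, G.trace_adicRep, AlgHom.commutes, ← (pt θ).j_algebraMap]
    rfl
  rw [← hc, ResidueField.map_residue, ← sub_eq_zero, ← map_sub, residue_eq_zero_iff]
  exact h1

omit [IsAdicComplete (maximalIdeal O) O] [IsLocalHom (algebraMap O H.algebra)] in
/-- The coefficients at a point receive those of the base locally. -/
theorem isLocalHom_point {θK : H.algebra →+* RT.Glue.KBar O}
    (P : RT.Glue.Point (p := p) H hS θK) : IsLocalHom (algebraMap O P.R) := by
  have hinj : Function.Injective (algebraMap O P.R) := fun x y h => by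
    refine IsFractionRing.injective O (FractionRing O)
      ((algebraMap (FractionRing O) (RT.Glue.KBar O)).injective ?_)
    rw [← IsScalarTower.algebraMap_apply, ← IsScalarTower.algebraMap_apply, ← P.j_algebraMap,
      RingHom.comp_apply, RingHom.comp_apply, h]
  exact RingHom.IsIntegral.isLocalHom
    (algebraMap_isIntegral_iff.mpr (Algebra.IsIntegral.of_finite O P.R)) hinj

include G hp hΔ hG in
set_option maxHeartbeats 2000000 in
/-- A residually ordinary representation gives residually ordinary points. -/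
theorem residual_adicRep_isOrdinaryAt (hp2 : p ≠ 2)
    (hdet : (GaloisRepAdic.ofResidualGaloisRep ρbar).DetIsCyclotomic p)
    (hord : (GaloisRepAdic.ofResidualGaloisRep ρbar).IsOrdinaryAt p)
    (θ : H.algebra →ₐ[O] RT.Glue.KBar O) :
    (GaloisRepAdic.ofResidualGaloisRep ((pt θ).adicRep (D := D)).residual).IsOrdinaryAt p := by
  haveI := isLocalHom_point (pt θ)
  let φ : ResidueField O →+* ResidueField (pt θ).R := ResidueField.map (algebraMap O (pt θ).R)
  have hφ : IsLocalHom φ :=
    ⟨fun x hx => (map_ne_zero_iff _ φ.injective).mp hx.ne_zero |> Ne.isUnit⟩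
  have hdet₀ : (GaloisRepAdic.ofResidualGaloisRep
      ((pt θ).adicRep (D := D)).residual).DetIsCyclotomic p :=
    CFT.Tangent.DetIsCyclotomic.baseChange (residue (pt θ).R)
      ⟨fun x hx => by
        by_contra hn
        exact hx.ne_zero ((residue_eq_zero_iff x).mpr hn)⟩
      (RT.Lower.detIsCyclotomic_adicRep (pt θ))
  have htr : ∀ σ, LinearMap.trace (ResidueField (pt θ).R) _
      ((GaloisRepAdic.ofResidualGaloisRep ((pt θ).adicRep (D := D)).residual).ρ σ) =
      LinearMap.trace (ResidueField (pt θ).R) _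
        (((GaloisRepAdic.ofResidualGaloisRep ρbar).baseChangeAlong φ hφ).ρ σ) := fun σ => by
    have h3 : LinearMap.trace (ResidueField (pt θ).R) _
        (((GaloisRepAdic.ofResidualGaloisRep ρbar).baseChangeAlong φ hφ).ρ σ) =
        φ (LinearMap.trace (ResidueField O) ρbar.V (ρbar.ρ σ)) := by
      let : Algebra (ResidueField O) (ResidueField (pt θ).R) := φ.toAlgebra
      exact LinearMap.trace_baseChange (ρbar.ρ σ) (ResidueField (pt θ).R)
    refine Eq.trans ?_ ((residue_trace_adicRep G hp hΔ hG θ σ).trans h3.symm)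
    exact LinearMap.trace_baseChange (((pt θ).adicRep (D := D)).ρ σ) (ResidueField (pt θ).R)
  exact RT.Glue.isOrdinaryAt_of_points
    (GaloisRepAdic.ofResidualGaloisRep ((pt θ).adicRep (D := D)).residual)
    (fun _ : Unit => (GaloisRepAdic.ofResidualGaloisRep ρbar).baseChangeAlong φ hφ) hp2 hdet₀
    (span_range_eq_top_of_absIrr _ (G.isAbsolutelyIrreducible hp θ))
    (f := fun _ => RingHom.id (ResidueField (pt θ).R))
    (j := fun _ => RingHom.id (ResidueField (pt θ).R))
    (fun x hx => hx ()) (fun _ σ => htr σ)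
    (fun _ σ => det_eq_of_detIsCyclotomic_field hdet₀
      (CFT.Tangent.DetIsCyclotomic.baseChange φ hφ hdet) σ)
    (fun _ => CFT.Tangent.DetIsCyclotomic.baseChange φ hφ hdet)
    fun _ => isOrdinaryAt_baseChange hp2 hdet hord

include hp hΔ in
/-- The glued representation is ordinary at `p` for a residually ordinary one, given the orders on
the torsion at good levels. -/
theorem isOrdinaryAt_glued_of_residual
    {pt : ∀ θ : H.algebra →ₐ[O] RT.Glue.KBar O, RT.Glue.Point (p := p) H hS θ.toRingHom}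
    (G : RT.Glue.Glued (fun (M : ℕ) [NeZero M] => GaloisReps.heckeGaloisModel M p) pt)
    (hG : G.rep.residual.IsEquiv
      (ρbar.baseChangeAlong (ResidueField.map (algebraMap O H.algebra))))
    (hp2 : p ≠ 2) (hψ : p ∣ L → ∀ u : (ZMod L)ˣ,
      ((u : ZMod L).cast : ZMod (L / p)) = 1 → ψ u = 1)
    (hM : ∀ (M : ℕ) [NeZero M], 4 ∣ M → ¬ p ∣ M → Mazur.Eisenstein.OrderProperty M)
    (hdet : (GaloisRepAdic.ofResidualGaloisRep ρbar).DetIsCyclotomic p)
    (hord : (GaloisRepAdic.ofResidualGaloisRep ρbar).IsOrdinaryAt p) :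
    G.rep.IsOrdinaryAt p := by
  refine RT.Glue.isOrdinaryAt_of_points G.rep (fun θ => (pt θ).adicRep) hp2
    (G.detIsCyclotomic hp hΔ) (OrdinaryAtP.span_range_glued G)
    (f := fun θ => θ.toRingHom) (j := fun θ => (pt θ).j)
    (fun x hx => RT.Glue.eq_zero_of_forall_point hx)
    (fun θ σ => (G.trace_adicRep θ σ).symm) (fun θ σ => ?_)
    (fun θ => RT.Lower.detIsCyclotomic_adicRep (pt θ)) fun θ => ?_
  · show θ _ = _
    rw [G.det_rep, G.det_eq, (pt θ).det_rep]
    rfl
  have h2 : ¬ p ^ 2 ∣ (pt θ).M := fun h => by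
    have hpL : p ∣ L := (Fact.out : p.Prime).dvd_of_dvd_pow
      (((dvd_pow_self p two_ne_zero).trans h).trans (pt θ).dvd)
    exact (pt θ).sq_not_dvd Fact.out hpL (fun u hu => by rw [hψ hpL u hu, map_one, map_one]) h
  by_cases hpM : p ∣ (pt θ).M
  · exact (OrdinaryAtP.strictAtLevels hp2 (pt θ).M (pt θ).g (pt θ).isNewform hpM h2 (pt θ).R
      (pt θ).ι (pt θ).θ' (pt θ).p_mem ((pt θ).emb.toRingHom.comp (pt θ).j)
      fun t => (pt θ).emb_θ' t).isOrdinaryAt
  · exact OrdinaryAtP.rep_isOrdinaryAt_of_residual _ _ _ (pt θ).p_mem hp2 h2 hM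
      (G.isAbsolutelyIrreducible hp θ)
      (residual_adicRep_isOrdinaryAt G hp hΔ hG hp2 hdet hord θ)

end Points

section Push

variable {O : Type} [CommRing O] [IsDomain O] [IsDiscreteValuationRing O]
  [IsAdicComplete (maximalIdeal O) O] [Finite (ResidueField O)] [CharZero O]
  {p : ℕ} [Fact p.Prime]
  {R : Type} [CommRing R] [IsLocalRing R] [Algebra O R] [Module.Finite O R]

/-- Strict ordinarity descends to subalgebras. -/
theorem isStrictOrdinaryAt_subalgebra (hp : (p : O) ∈ maximalIdeal O) (hp2 : p ≠ 2)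
    (B : Subalgebra O R) [IsLocalRing B] [IsLocalHom (algebraMap O B)] {r : GaloisRepAdic B}
    {ρ : GaloisRepAdic R}
    (he : (r.baseChangeAlong (B.val : B →+* R)
      (RT.Assembly.isLocalHom_subalgebra_val B)).IsEquiv ρ)
    (h : ρ.IsStrictOrdinaryAt p) : r.IsStrictOrdinaryAt p := by
  haveI := RT.Assembly.isLocalHom_subalgebra_val B
  haveI : IsNoetherianRing R := IsNoetherianRing.of_finite O R
  let b := Module.finBasisOfFinrankEq B r.V r.finrank_eq
  obtain ⟨c, hc⟩ := RT.Lower.exists_cycValues (O := O) hp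
  refine RT.Lower.isStrictOrdinaryAt_congr (isEquiv_symm (isEquiv_toRep_matOf r b)) ?_
  refine RT.Lower.isStrictOrdinaryAt_of_injective (φ := (B.val : B →+* R)) (isCont_matOf r b)
    ((isCont_matOf r b).map _ inferInstance) Subtype.val_injective hp2
    (RT.Lower.isStrictOrdinaryAt_congr ?_ h) (c := fun σ => algebraMap O B (c σ)) fun σ n a ha => ?_
  · exact isEquiv_trans (isEquiv_symm he) (isEquiv_baseChangeAlong_matOf _ _ r b)
  · have h1 := CFT.Tangent.map_mem_span_natCast (algebraMap O B) (hc σ n a ha)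
    rwa [map_sub, map_natCast] at h1

/-- A condition at `p` descends to a subalgebra. -/
theorem pKind_subalgebra (hp : (p : O) ∈ maximalIdeal O) (hp2 : p ≠ 2) (K : PKind)
    (B : Subalgebra O R) [IsLocalRing B] [IsLocalHom (algebraMap O B)] {r : GaloisRepAdic B}
    {ρ : GaloisRepAdic R}
    (he : (r.baseChangeAlong (B.val : B →+* R)
      (RT.Assembly.isLocalHom_subalgebra_val B)).IsEquiv ρ)
    (hdet : r.DetIsCyclotomic p) (h : K.Holds ρ p) : K.Holds r p := by
  cases K with
  | flat => exact isFlatAt_subalgebra B he h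
  | ord =>
    exact isOrdinaryAt_of_baseChange (φ := (B.val : B →+* R)) Subtype.val_injective hp2 hdet
      (isOrdinaryAt_congr (isEquiv_symm he) h)
  | strict => exact isStrictOrdinaryAt_subalgebra hp hp2 B he h

omit [IsDomain O] [IsDiscreteValuationRing O] [IsAdicComplete (maximalIdeal O) O]
  [Finite (ResidueField O)] [CharZero O] [Module.Finite O R] in
/-- A condition at `p` passes to quotients. -/
theorem pKind_baseChange {A : Type} [CommRing A] [IsLocalRing A] {φ : R →+* A}
    (hφ : IsLocalHom φ) (hsurj : Function.Surjective φ) (hp2 : p ≠ 2) (K : PKind)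
    {r : GaloisRepAdic R} (hdet : r.DetIsCyclotomic p) (h : K.Holds r p) :
    K.Holds (r.baseChangeAlong φ hφ) p := by
  cases K with
  | flat => exact CFT.Tangent.IsFlatAt.baseChange φ hφ hsurj h
  | ord => exact isOrdinaryAt_baseChange hp2 hdet h
  | strict => exact CFT.Tangent.IsStrictOrdinaryAt.baseChange φ hφ h

end Push

end Fermat.Agent.Lifting
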