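import Fermat.Agent.Lifting.Galois.AtPoints

/-!
# From the glued representation to a quotient of the algebra of the twisted operators

A subalgebra containing the twisted operators carries the glued representation with the same
conditions; a surjection onto a residual algebra pushes it forward.
-/

set_option autoImplicit false
set_option linter.style.haveILetI false

noncomputable section

namespace Fermat.Agent.Lifting

open IsLocalRing Module Fermat.Agent.Deform

variable {O : Type} [CommRing O] [IsDomain O] [IsDiscreteValuationRing O]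
  [IsAdicComplete (maximalIdeal O) O] [Finite (ResidueField O)] [CharZero O]
  {p : ℕ} [Fact p.Prime]
  {L : ℕ} [NeZero L] {Δ : Type} [CommGroup Δ] [Finite Δ] {ψ : (ZMod L)ˣ →* Δ} {S : Finset ℕ}
  {abar : ℕ → ResidueField O}
  {H : RT.HeckeModule L ψ S abar} {hS : ∀ q : ℕ, q.Prime → q ∣ L → q ∈ S}
  [IsLocalRing H.algebra] [IsLocalHom (algebraMap O H.algebra)]
  {D : ∀ (M : ℕ) [NeZero M], GaloisReps.HeckeGaloisModel M p}
  {pt : ∀ θ : H.algebra →ₐ[O] RT.Glue.KBar O, RT.Glue.Point (p := p) H hS θ.toRingHom}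

omit [IsLocalHom (algebraMap O H.algebra)] in
/-- The trace of the glued representation at a Frobenius element. -/
theorem trace_glued_frobenius (G : RT.Glue.Glued D pt) (hpS : p ∈ S) {ℓ : ℕ} (hℓ : ℓ.Prime)
    (hℓS : ℓ ∉ S) {P : ValuationSubring (AlgebraicClosure ℚ)} (hP : P.LiesOverPrime ℓ) {σ : Gal}
    (hσ : P.IsFrobeniusAt σ ℓ) :
    LinearMap.trace H.algebra G.rep.V (G.rep.ρ σ) = RT.Glue.sA H hS hℓ hℓS := by
  refine sub_eq_zero.1 (RT.Glue.eq_zero_of_forall_point fun θ => ?_)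
  have h := (pt θ).trace_frobenius_pow D hpS hℓ hℓS hP hσ 1
  rw [pow_one] at h
  rw [map_sub, sub_eq_zero, G.trace_rep, G.trace_eq]
  refine h.trans ?_
  simp [GaloisReps.powerTrace]

set_option maxHeartbeats 1000000 in
/-- The glued representation pushed to a quotient of the algebra of the twisted operators. -/
theorem exists_pushforward (G : RT.Glue.Glued D pt) (hp : (p : O) ∈ maximalIdeal O)
    (hΔ : IsPGroup p Δ) (hp2 : p ≠ 2) (hpS : p ∈ S)
    {ρbar : ResidualGaloisRep (ResidueField O)} (habs : ρbar.IsAbsolutelyIrreducible)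
    (hG : G.rep.residual.IsEquiv
      (ρbar.baseChangeAlong (ResidueField.map (algebraMap O H.algebra))))
    (B : Subalgebra O H.algebra) [IsLocalRing B] [IsLocalHom (algebraMap O B)]
    (hB : ∀ (ℓ : ℕ) (hℓ : ℓ.Prime) (hℓS : ℓ ∉ S), RT.Glue.sA H hS hℓ hℓS ∈ B)
    {A : Type} [CommRing A] [IsLocalRing A] [Algebra O A] [Module.Finite O A]
    [IsLocalHom (algebraMap O A)] (hA : IsResAlg O A)
    (Φ : B →ₐ[O] A) (hΦ : Function.Surjective Φ) (op : ℕ → A)
    (hop : ∀ (ℓ : ℕ) (hℓ : ℓ.Prime) (hℓS : ℓ ∉ S), Φ ⟨_, hB ℓ hℓ hℓS⟩ = op ℓ)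
    (K : PKind) (hK : K.Holds G.rep p) {U N₀ : Set ℕ}
    (hU : ∀ q ∈ U, G.rep.IsUnramifiedAt q)
    (hN₀ : ∀ q ∈ N₀, G.rep.IsUnipotentOnInertiaAt q) :
    ∃ ρ : GaloisRepAdic A,
      ρ.residual.IsEquiv (ρbar.baseChangeAlong (ResidueField.map (algebraMap O A))) ∧
      ρ.DetIsCyclotomic p ∧ K.Holds ρ p ∧ (∀ q ∈ U, ρ.IsUnramifiedAt q) ∧
      (∀ q ∈ N₀, ρ.IsUnipotentOnInertiaAt q) ∧
      ∀ ℓ : ℕ, ℓ.Prime → ℓ ∉ S → ∀ P : ValuationSubring (AlgebraicClosure ℚ),
        P.LiesOverPrime ℓ → ∀ σ : Gal, P.IsFrobeniusAt σ ℓ → ρ.trace σ = op ℓ := by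
  have hH : IsResAlg O H.algebra :=
    ⟨inferInstance, RT.Glue.residue_algebraMap_surjective H hp hΔ⟩
  let bb : Basis (Fin 2) (ResidueField O) ρbar.V :=
    Module.finBasisOfFinrankEq (ResidueField O) ρbar.V ρbar.finrank_eq
  obtain ⟨W, hW⟩ := exists_rigid ρbar habs bb
  obtain ⟨r, hres, he⟩ := exists_rep_subalgebra hW habs hH (RT.Glue.isUnit_two hp hΔ hp2) G.rep hG B
    S fun ℓ hℓ hℓS P hP σ hσ => by
      rw [trace_glued_frobenius G hpS hℓ hℓS hP hσ]
      exact hB ℓ hℓ hℓS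
  have hdet : r.DetIsCyclotomic p :=
    detIsCyclotomic_subalgebra B he hp (G.detIsCyclotomic hp hΔ)
  haveI := RT.Assembly.finite_subalgebra B
  haveI hφ : IsLocalHom (Φ : B →+* A) := IsLocalHom.of_surjective (Φ : B →+* A) hΦ
  have hB' : IsResAlg O B := RT.Assembly.isResAlg_subalgebra hH B
  refine ⟨r.baseChangeAlong (Φ : B →+* A) hφ, ?_,
    CFT.Tangent.DetIsCyclotomic.baseChange _ hφ hdet,
    pKind_baseChange hφ hΦ hp2 K hdet (pKind_subalgebra hp hp2 K B he hdet hK),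
    fun q hq => CFT.Tangent.IsUnramifiedAt.baseChange _ hφ
      (isUnramifiedAt_subalgebra B he (hU q hq)),
    fun q hq => CFT.Tangent.IsUnipotentOnInertiaAt.baseChange _ hφ
      (isUnipotentOnInertiaAt_subalgebra B he (hN₀ q hq)), fun ℓ hℓ hℓS P hP σ hσ => ?_⟩
  · obtain ⟨b, hl⟩ := exists_lifts_basis hW hB' r hres
    letI := (Φ : B →+* A).toAlgebra
    refine residual_isEquiv_of_lifts hW hA _ (b.baseChange A) ?_
    rw [matOf_baseChangeAlong]
    exact hl.map hA Φ hφ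
  · have h1 : LinearMap.trace B r.V (r.ρ σ) = ⟨_, hB ℓ hℓ hℓS⟩ := Subtype.ext <|
      (coe_trace_subalgebra B he σ).trans (trace_glued_frobenius G hpS hℓ hℓS hP hσ)
    rw [← hop ℓ hℓ hℓS, ← h1]
    letI := (Φ : B →+* A).toAlgebra
    exact LinearMap.trace_baseChange (r.ρ σ) A

end Fermat.Agent.Lifting
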