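import Fermat.Agent.Lifting.Galois.GluedPush
import Fermat.Agent.Lifting.Assembly.WAlg
import Fermat.Agent.Lifting.Setup.Algebra
import Fermat.Agent.Lifting.Setup.Case
import Fermat.Agent.FiniteFlat.GrassOrder
import Fermat.Agent.Semistable.Unconditional

/-!
# The representation over the algebra of a level

`Ctx.exists_levelRep` gives over `levelT` at `C.level b T` a representation with residual
representation `C.ρbar`, cyclotomic determinant, the condition of the kind of the level at `p`,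
unramified outside `p`, the ramified primes and `T`, unipotent at the ramified primes, with the
operators as traces of Frobenius. The signed part of `C.cond b T` is in `SignedCtx`.
-/

set_option autoImplicit false
set_option linter.overlappingInstances false
set_option linter.style.haveILetI false

noncomputable section

namespace Fermat.Agent.Lifting

open IsLocalRing _root_.Module Fermat.Agent.Deform
open Fermat.Agent.RT (halfInvExp)
open Fermat.Agent.RT.GammaH Fermat.Agent.RT.Glue Fermat.Agent.Lifting.Degeneracy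
open Fermat.Agent.Lifting.Assembly (TwRing twHom wAct)

/-- A unit congruent to `1` away from a prime of trivial weight lies in `diaSub`. -/
theorem mem_diaSub_of_cast_eq_one {P : ℕ → ℕ} {N v : ℕ} (hv : v.Prime) (hvN : v ∣ N)
    (hPv : P v = 1) {u : (ZMod N)ˣ} (hu : ((u : ZMod N).cast : ZMod (N / v)) = 1) :
    u ∈ diaSub P N := fun r hr hrp => by
  have : Fact r.Prime := ⟨hrp⟩
  by_cases hrv : r = v
  · subst hrv
    rw [hPv, Nat.div_one, ZMod.units_pow_card_sub_one_eq_one]
  · have hrM : r ∣ N / v := by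
      refine (Nat.Coprime.dvd_mul_left ((Nat.coprime_primes hrp hv).2 hrv)).1 ?_
      rwa [Nat.mul_div_cancel' hvN]
    have h1 : ZMod.unitsMap (Nat.div_dvd_of_dvd hvN) u = 1 :=
      Units.ext (by rw [ZMod.unitsMap_val, Units.val_one]; exact hu)
    have e1 : ZMod.unitsMap hr u = ZMod.unitsMap hrM (ZMod.unitsMap (Nat.div_dvd_of_dvd hvN) u) := by
      rw [← MonoidHom.comp_apply, ZMod.unitsMap_comp]
    rw [e1, h1, map_one, one_pow]

theorem IsWeight.eq_one_self {p : ℕ} [hp : Fact p.Prime] {T : Finset ℕ} {P : ℕ → ℕ}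
    (hP : IsWeight p T P) : P p = 1 := by
  obtain ⟨k, hk⟩ := hP.pow p
  rcases Nat.eq_zero_or_pos k with rfl | hk0
  · rw [hk, pow_zero]
  · have h := (dvd_pow_self p hk0.ne').trans (hk ▸ hP.dvd_sub_one hp.out)
    have h2 := hp.out.two_le
    have := Nat.le_of_dvd (show 0 < p - 1 by omega) h
    omega

variable {O : Type} [CommRing O] [IsDomain O] [IsDiscreteValuationRing O]
  {p : ℕ} [Fact p.Prime] (C : Ctx O p)

theorem Ctx.p_notMem_basePrimes [CharP (ResidueField O) p] : p ∉ C.basePrimes := fun h => by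
  rcases Finset.mem_insert.1 h with h | h
  · exact C.a_ne h.symm
  · exact ((Curve.mem_ramifiedPrimes C.delta_ne (k := ZMod p)).1 h).2.1 rfl

/-- The primes of a level. -/
theorem Ctx.dvd_level_cases [CharP (ResidueField O) p] {b : Bool} {T : Finset ℕ}
    (hT : ∀ q ∈ T, q.Prime) {q : ℕ} (hq : q.Prime) (h : q ∣ C.level b T) :
    (b = true ∧ q = p) ∨ q ∈ C.basePrimes ∨ q ∈ T := by
  have hprod : ∀ U : Finset ℕ, (∀ r ∈ U, r.Prime) → q ∣ ∏ r ∈ U, r → q ∈ U := fun U hU hd => by
    obtain ⟨r, hr, hqr⟩ := (Nat.prime_iff.1 hq).exists_mem_finset_dvd hd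
    rwa [(Nat.prime_dvd_prime_iff_eq hq (hU r hr)).1 hqr]
  rcases hq.dvd_mul.1 h with h | h
  · rcases hq.dvd_mul.1 h with h | h
    · cases b
      · exact absurd (Nat.dvd_one.1 h) hq.ne_one
      · exact Or.inl ⟨rfl, (Nat.prime_dvd_prime_iff_eq hq Fact.out).1 h⟩
    · exact Or.inr (Or.inl (hprod _ (fun r hr => C.prime_of_mem_basePrimes hr) h))
  · exact Or.inr (Or.inr (hprod T hT h))

variable [IsAdicComplete (maximalIdeal O) O] [Finite (ResidueField O)] [CharZero O]
  [CharP (ResidueField O) p] {b : Bool} {T : Finset ℕ}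
  {Δ : Type} [CommGroup Δ] [Fintype Δ] [NeZero (C.level b T)]
  {ψ : (ZMod (C.level b T))ˣ →* Δ} {S : Finset ℕ} {K : Subgroup (ZMod (C.level b T))ˣ} {e : ℕ}
  {hK : TwistSub (C.level b T) K e} {T' : Finset ℕ} {eps : ℕ → O}

set_option maxHeartbeats 2000000 in
/-- **The representation over the algebra of a level.** -/
theorem Ctx.exists_levelRep (hB : C.Base b) (hT : C.Admissible b T) {P : ℕ → ℕ}
    (hP : IsWeight p T P) (hpT : p ∈ T → (p : ℤ) ∣ C.W.Δ)
    (hs : Module.Setup p ψ S C.abar) (hKP : K = diaSub P (C.level b T)) (hKψ : K = ψ.ker)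
    (he : e = halfInvExp Δ) (hbad : C.badSet ⊆ S)
    [Nontrivial (wEigen S C.abar hK T' eps)] [IsLocalRing (levelT S C.abar hK T' eps)]
    (hA : IsResAlg O (levelT S C.abar hK T' eps))
    [IsLocalHom (algebraMap O (levelT S C.abar hK T' eps))] :
    ∃ ρ : GaloisRepAdic (levelT S C.abar hK T' eps),
      ρ.residual.IsEquiv
          (C.ρbar.baseChangeAlong (ResidueField.map (algebraMap O (levelT S C.abar hK T' eps)))) ∧
        ρ.DetIsCyclotomic p ∧ (C.kind b T).Holds ρ p ∧
        (∀ q : ℕ, q.Prime → q ∉ insert p (C.N0 ∪ T) → ρ.IsUnramifiedAt q) ∧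
        (∀ q ∈ C.N0, q.Prime → q ≠ p → ρ.IsUnipotentOnInertiaAt q) ∧
        ∀ ℓ : ℕ, ℓ.Prime → ℓ ∉ S → ∀ Q : ValuationSubring (AlgebraicClosure ℚ),
          Q.LiesOverPrime ℓ → ∀ σ : Gal, Q.IsFrobeniusAt σ ℓ →
            ρ.trace σ = levelOp S C.abar hK T' eps ℓ := by
  classical
  subst hKψ he
  have hp := C.p_mem
  have hp2 := C.p_ne_two
  have hS := hs.primes
  have hΔ := hs.pGroup
  have hpS : p ∈ S := hbad (C.mem_badSet (Fact.out : p.Prime) (b := b) (Or.inl rfl))
  have habs := Curve.isAbsolutelyIrreducible_residual (k := ResidueField O) C.delta_ne hp2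
    C.irreducible
  have hbar := Curve.hasCharpolys_residual (O := O) C.delta_ne hpS
    fun r hr hd => hbad (C.mem_badSet hr (b := b) (Or.inr (Or.inr hd)))
  have hψ : ∀ v : ℕ, v.Prime → v ∣ C.level b T → P v = 1 → ∀ u : (ZMod (C.level b T))ˣ,
      ((u : ZMod (C.level b T)).cast : ZMod (C.level b T / v)) = 1 → ψ u = 1 :=
    fun v hv hvN hPv u hu => by
      rw [← MonoidHom.mem_ker, hKP]
      exact mem_diaSub_of_cast_eq_one hv hvN hPv hu
  have hbase : ∀ q ∈ C.basePrimes, P q = 1 := fun q hq =>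
    hP.trivial q fun hqT => hT.notMem q hqT hq
  have hψp : p ∣ C.level b T → ∀ u : (ZMod (C.level b T))ˣ,
      ((u : ZMod (C.level b T)).cast : ZMod (C.level b T / p)) = 1 → ψ u = 1 :=
    fun h => hψ p Fact.out h hP.eq_one_self
  -- the glued representation
  obtain ⟨e, heH, heH₀⟩ := Module.exists_localizer_pair (O := O) (ψ := ψ) (S := S)
    (abar := C.abar) (L := C.level b T)
  set H := Module.heckeModule hs heH heH₀
  have hle : ∀ x ∈ wEigen S C.abar hK T' eps, x ∈ localPart O e (HomMod O S ψ.ker O) :=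
    fun x hx => locSub_eq heH ▸ hx.1
  have hpos : 0 < H.d := by
    by_contra h0
    have : Subsingleton (Fin H.d × Δ →₀ O) :=
      ⟨fun _ _ => Finsupp.ext fun i => absurd i.1.2 (by omega)⟩
    have hM : Subsingleton H.M := H.basis_bijective.2.subsingleton
    obtain ⟨x, hx⟩ := exists_ne (0 : wEigen S C.abar hK T' eps)
    have h1 : (⟨x.1, hle x.1 x.2⟩ : localPart O e (HomMod O S ψ.ker O)) = 0 :=
      @Subsingleton.elim H.M hM _ _
    exact hx (Subtype.ext (congrArg
      (fun w : localPart O e (HomMod O S ψ.ker O) => (w : HomMod O S ψ.ker O)) h1))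
  haveI := isLocalRing_algebra H hp hΔ hpos
  haveI := isLocalHom_algebraMap H hp hΔ
  let D : ∀ (M : ℕ) [NeZero M], GaloisReps.HeckeGaloisModel M p := fun M _ =>
    GaloisReps.heckeGaloisModel M p
  let pt := fun θ => (exists_point hp H hS θ).some
  obtain ⟨G, hG⟩ := exists_glued hp hΔ hp2 hpS habs hbar D pt
  -- the algebra of the twisted operators
  let φ : TwRing O S →ₐ[O] H.algebra := MvPolynomial.aeval fun ℓ => sA H hS ℓ.2.1 ℓ.2.2
  let Φ₀ : OpRing O (C.level b T) S →ₐ[O] _root_.Module.End O H.M :=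
    localAct O e (HomMod O S ψ.ker O)
  have hφ : ∀ r, (φ r : _root_.Module.End O H.M) =
      Φ₀ (twHom O hS (halfInvExp Δ) r) := fun r => by
    refine DFunLike.congr_fun (MvPolynomial.algHom_ext (f := H.algebra.val.comp φ)
      (g := Φ₀.comp (twHom O hS (halfInvExp Δ))) fun ℓ => ?_) r
    simp only [AlgHom.comp_apply, φ, twHom, MvPolynomial.aeval_X, Subalgebra.coe_val, sA, twEl,
      map_mul, SubmonoidClass.coe_pow]
    show H.dia (ψ _) ^ _ * H.T ℓ.1 = _
    rw [← map_pow, ← map_pow ψ, Module.heckeModule_dia hs heH heH₀,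
      Module.heckeModule_T hs heH heH₀ ℓ]
    rfl
  let π₀ : TwRing O S →ₐ[O] levelT S C.abar hK T' eps :=
    MvPolynomial.aeval fun ℓ => levelOp S C.abar hK T' eps ℓ.1
  have hπ₀ : ∀ r, (π₀ r : _root_.Module.End O (wEigen S C.abar hK T' eps)) =
      wAct hS C.abar hK T' eps r := fun r => by
    refine DFunLike.congr_fun (MvPolynomial.algHom_ext
      (f := (levelT S C.abar hK T' eps).val.comp π₀)
      (g := wAct hS C.abar hK T' eps) fun ℓ => LinearMap.ext fun x => Subtype.ext ?_) r
    simp only [AlgHom.comp_apply, π₀, MvPolynomial.aeval_X, Subalgebra.coe_val]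
    rw [coe_levelOp S C.abar hK T' eps ℓ.2.1 ℓ.2.2 (Assembly.coprime_level hS ℓ), coe_twAct]
    show _ = twHom O hS (halfInvExp Δ) (MvPolynomial.X ℓ) • (x : HomMod O S ψ.ker O)
    rw [twHom, MvPolynomial.aeval_X]
  have hker : ∀ r, φ r = 0 → π₀ r = 0 := fun r hr => Subtype.ext <| (hπ₀ r).trans <| by
    refine LinearMap.ext fun x => Subtype.ext ?_
    show twHom O hS (halfInvExp Δ) r • (x : HomMod O S ψ.ker O) = 0
    exact congrArg Subtype.val (LinearMap.congr_fun ((hφ r).symm.trans (congrArg Subtype.val hr))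
      ⟨x.1, hle x.1 x.2⟩)
  haveI : _root_.Module.Finite O (levelT S C.abar hK T' eps) :=
    have : _root_.Module.Finite O (wEigen S C.abar hK T' eps) :=
      _root_.Module.Finite.of_fg (IsNoetherian.noetherian _)
    have : _root_.Module.Free O (wEigen S C.abar hK T' eps) :=
      _root_.Module.free_of_finite_type_torsion_free'
    _root_.Module.Finite.of_injective (levelT S C.abar hK T' eps).val.toLinearMap
      Subtype.val_injective
  haveI : IsLocalRing φ.range := RT.Assembly.isLocalRing_subalgebra φ.range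
  haveI := RT.Assembly.isLocalHom_subalgebra_val φ.range
  haveI : IsLocalHom (algebraMap O φ.range) := ⟨fun c hc =>
    (isUnit_of_map_unit (algebraMap O H.algebra) c (hc.map φ.range.val))⟩
  let Ψ : (TwRing O S ⧸ RingHom.ker φ.rangeRestrict) →ₐ[O] levelT S C.abar hK T' eps :=
    Ideal.Quotient.liftₐ _ π₀ fun r hr => hker r (congrArg Subtype.val (RingHom.mem_ker.1 hr))
  let Φ : φ.range →ₐ[O] levelT S C.abar hK T' eps :=
    Ψ.comp (Ideal.quotientKerAlgEquivOfSurjective φ.rangeRestrict_surjective).symm.toAlgHom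
  have hΦ' : ∀ r, Φ (φ.rangeRestrict r) = π₀ r := fun r => by
    show Ψ ((Ideal.quotientKerAlgEquivOfSurjective φ.rangeRestrict_surjective).symm
      (φ.rangeRestrict r)) = _
    rw [← Ideal.quotientKerAlgEquivOfSurjective_mk φ.rangeRestrict_surjective r,
      AlgEquiv.symm_apply_apply]
    rfl
  have hπsurj : Function.Surjective π₀ := by
    refine (AlgHom.range_eq_top π₀).mp (top_le_iff.mp ?_)
    rw [← adjoin_levelOp S C.abar hK T' eps hS]
    refine Algebra.adjoin_le ?_
    rintro _ ⟨ℓ, hℓ, rfl⟩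
    exact ⟨MvPolynomial.X ⟨ℓ, hℓ⟩, MvPolynomial.aeval_X _ _⟩
  -- the conditions
  have hN0 : ∀ q ∈ C.N0, q.Prime ∧ q ≠ p ∧ q ∣ C.level b T := fun q hq => by
    obtain ⟨h1, h2, -⟩ := (Curve.mem_ramifiedPrimes C.delta_ne (k := ZMod p)).1 hq
    exact ⟨h1, h2, ((Finset.dvd_prod_of_mem (fun r => r) (Finset.mem_insert_of_mem hq)).trans
      (dvd_mul_left _ _)).trans (dvd_mul_right _ _)⟩
  have hun : ∀ q ∈ {q : ℕ | q ∈ C.N0}, G.rep.IsUnipotentOnInertiaAt q := fun q hq => by
    obtain ⟨h1, h2, h3⟩ := hN0 q hq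
    exact G.isUnipotentOnInertiaAt h1 h3 h2 (hψ q h1 h3 (hbase q (Finset.mem_insert_of_mem hq)))
      fun M _ _ hd hsq => Semistable.unipotentAt_model M p h1 h2 hd hsq
  have hur : ∀ q ∈ {q : ℕ | q.Prime ∧ q ∉ insert p (C.N0 ∪ T)}, G.rep.IsUnramifiedAt q := by
    rintro q ⟨hq, hmem⟩
    simp only [Finset.mem_insert, Finset.mem_union, not_or] at hmem
    by_cases hqN : q ∣ C.level b T
    · have hqa : q = C.a := by
        rcases C.dvd_level_cases hT.prime hq hqN with h | h | h
        · exact absurd h.2 hmem.1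
        · exact (Finset.mem_insert.1 h).resolve_right hmem.2.1
        · exact absurd h hmem.2.2
      subst hqa
      obtain ⟨A, hAq⟩ := Arith.exists_liesOverPrime hq
      obtain ⟨σ, hσ⟩ := Arith.exists_isFrobeniusAt hAq hq
      refine RT.Lower.isUnramifiedAt_of_residual_trace_ne G hG hq hqN C.a_ne
        (hψ _ hq hqN (hbase _ (Finset.mem_insert_self _ _)))
        (fun M _ _ hd hsq => ⟨Semistable.unipotentAt_model M p hq C.a_ne hd hsq,
          Semistable.toricSquareAt_model M p hq C.a_ne hsq⟩) hAq hσ ?_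
      let bb := _root_.Module.finBasisOfFinrankEq (ResidueField O) C.ρbar.V C.ρbar.finrank_eq
      rw [LinearMap.trace_eq_matrix_trace _ bb, Matrix.trace_eq_neg_charpoly_coeff,
        LinearMap.charpoly_toMatrix,
        Curve.charpoly_residual_frobenius C.delta_ne hq C.a_good C.a_ne hAq hσ, Fintype.card_fin,
        add_comm (C.a : ResidueField O) 1]
      simpa [Polynomial.coeff_X_pow, Polynomial.coeff_one] using C.a_sq
    · exact G.isUnramifiedAt hq hqN hmem.1
  have hkind : (C.kind b T).Holds G.rep p := by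
    have hpN : ∀ h : p ∣ C.level b T, b = true ∨ p ∈ T := fun h => by
      rcases C.dvd_level_cases hT.prime (Fact.out : p.Prime) h with h | h | h
      · exact Or.inl h.1
      · exact absurd h C.p_notMem_basePrimes
      · exact Or.inr h
    cases b with
    | true =>
      have hpN : p ∣ C.level true T := (dvd_mul_right p _).trans (dvd_mul_right _ _)
      refine RT.Lower.isStrictOrdinaryAt_of_dvd hp hΔ hp2 (OrdinaryAtP.strictAtLevels hp2) G hpN
        ?_ (hψp hpN)
      rintro ⟨g, hg⟩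
      letI : Algebra (ZMod p) (ResidueField O) := ZMod.algebra _ p
      have hsq := hs.sqfree
      refine hB.pnew rfl (C.level true T / p) (hsq.squarefree_of_dvd (Nat.div_dvd_of_dvd hpN))
        (fun h => ?_) (RT.Lower.isResiduallyModularOfLevel_of_congruent C.delta_ne hg)
      exact (Nat.squarefree_iff_prime_squarefree.1 hsq p Fact.out)
        (Nat.mul_dvd_of_dvd_div hpN h)
    | false =>
      by_cases hpT' : p ∈ T
      · rw [show C.kind false T = .ord by simp [Ctx.kind, hpT']]
        exact isOrdinaryAt_glued_of_residual hp hΔ G hG hp2 hψp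
          (fun M _ _ _ => FiniteFlat.orderProperty M)
          (Curve.detIsCyclotomic_residual C.delta_ne)
          (Curve.isStrictOrdinaryAt_residual C.delta_ne C.semistable hp2 (hpT hpT')).isOrdinaryAt
      · rw [show C.kind false T = .flat by simp [Ctx.kind, hpT']]
        refine RT.Lower.isFlatAt_of_not_dvd hp hΔ
          (fun M _ hM N => RT.Lower.nonempty_galOrder_heckeModel (FiniteFlat.orderProperty M) hM N)
          G fun h => ?_
        rcases hpN h with h | h
        · exact Bool.false_ne_true h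
        · exact hpT' h
  obtain ⟨ρ, h1, h2, h3, h4, h5, h6⟩ := exists_pushforward G hp hΔ hp2 hpS habs hG φ.range
    (fun ℓ hℓ hℓS => ⟨MvPolynomial.X ⟨ℓ, hℓ, hℓS⟩, MvPolynomial.aeval_X _ _⟩) hA Φ
    (fun t => (hπsurj t).imp' φ.rangeRestrict fun r hr => (hΦ' r).trans hr)
    (levelOp S C.abar hK T' eps) (fun ℓ hℓ hℓS => by
      refine Eq.trans (congrArg Φ ?_)
        ((hΦ' (MvPolynomial.X ⟨ℓ, hℓ, hℓS⟩)).trans (MvPolynomial.aeval_X _ _))
      exact Subtype.ext
        (MvPolynomial.aeval_X (fun l : {l : ℕ // l.Prime ∧ l ∉ S} => sA H hS l.2.1 l.2.2)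
          ⟨ℓ, hℓ, hℓS⟩).symm)
    (C.kind b T) hkind hur hun
  exact ⟨ρ, h1, h2, h3, fun q hq hqm => h4 q ⟨hq, hqm⟩, fun q hq _ _ => h5 q hq, h6⟩

end Fermat.Agent.Lifting
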