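import Fermat.Agent.Lifting.Galois.SignedPlane
import Fermat.Agent.Lifting.Deform.Condition
import Fermat.Agent.RT.Glue.Inertia
import Fermat.Agent.Semistable.ToricReduce

/-!
# The Steinberg relations with sign over the Hecke algebra

At every point special at `q` with coefficient `s` the relations hold by the signed toric input, at
the other points inertia is trivial; the representation over the algebra spans, so relations
between traces descend to it.
-/

set_option autoImplicit false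
set_option linter.style.haveILetI false
set_option maxHeartbeats 800000

noncomputable section

open IsLocalRing Polynomial

namespace Fermat.Agent.Lifting

open GaloisReps (AbsGal FullHecke HeckeGaloisModel matIn)
open NewformLocal (UnipotentAt toricOp levelPrimes)
open RT.Glue (KBar Point)

theorem eigenChar_heckeOp {N : ℕ} [NeZero N] {f : CuspForm (CongruenceSubgroup.Gamma0 N) 2}
    (hf : f.IsNormalizedEigenform) {ℓ : ℕ} (hℓ : ℓ.Prime) :
    ConductorLevel.eigenChar hf ∅ (HeckeDuality.heckeOp N 2 ℓ hℓ) =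
      ModularFormClass.qCoeff f ℓ := by
  show ModularFormClass.qCoeff ((HeckeDuality.heckeOp N 2 ℓ hℓ).1 f) 1 = _
  rw [ConductorLevel.heckeOp_eigen hf hℓ, HeckeDuality.coeff_smul, hf.qCoeff_one, mul_one]

section Matrix

variable {R K V : Type*} [CommRing R] [CommRing K] [AddCommGroup V] [Module R V] (φ : R →+* K)
  (b : Module.Basis (Fin 2) R V) (f g : Module.End R V) (c : R)

theorem map_toMatrix_sub_smul :
    φ.mapMatrix (LinearMap.toMatrix b b (f - c • 1)) =
      (LinearMap.toMatrix b b f).map φ - φ c • 1 := by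
  rw [map_sub, map_smul, LinearMap.toMatrix_one, map_sub]
  congr 1
  ext i j
  rcases eq_or_ne i j with rfl | h
  · simp
  · simp [Matrix.one_apply_ne h]

theorem map_toMatrix_sub_one :
    φ.mapMatrix (LinearMap.toMatrix b b (f - 1)) = (LinearMap.toMatrix b b f).map φ - 1 := by
  rw [map_sub, LinearMap.toMatrix_one, map_sub, map_one]
  rfl

theorem matrix_left (h : (f - c • 1) * (g - 1) = 0) :
    ((LinearMap.toMatrix b b f).map φ - φ c • 1) * ((LinearMap.toMatrix b b g).map φ - 1) = 0 := by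
  rw [← map_toMatrix_sub_smul, ← map_toMatrix_sub_one, ← map_mul, ← LinearMap.toMatrix_mul, h,
    map_zero, map_zero]

theorem matrix_right (h : (g - 1) * (f - c • 1) = 0) :
    ((LinearMap.toMatrix b b g).map φ - 1) * ((LinearMap.toMatrix b b f).map φ - φ c • 1) = 0 := by
  rw [← map_toMatrix_sub_smul, ← map_toMatrix_sub_one, ← map_mul, ← LinearMap.toMatrix_mul, h,
    map_zero, map_zero]

end Matrix

section Model

variable {N p : ℕ} [NeZero N] [Fact p.Prime] {O : Type} [CommRing O] [IsDomain O]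
  [IsDiscreteValuationRing O] [CharZero O]

/-- The relations on the eigen-lattice. -/
theorem signed_eigenAction (D : HeckeGaloisModel N p) (ι : ℤ_[p] →+* O) (θ : FullHecke N →+* O)
    (hp : (p : O) ∈ maximalIdeal O) {q R : ℕ} [NeZero R] (hq : q.Prime) (hqp : q ≠ p)
    (hR : R ∣ N) (hRq : R * q = N) (hU : UnipotentAt D q)
    (hT : Semistable.ToricSignedAt D q hq)
    (t : CuspForm.heckeAlgebra N 2 (levelPrimes N))
    (ht : ∀ f : CuspForm (CongruenceSubgroup.Gamma0 R) 2, t.1 (Newforms.levelIncl hR f) = 0)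
    {ℓ : ℕ} (hℓ : ℓ.Prime) (hℓN : ¬ ℓ ∣ N * p) (hθt : θ (toricOp t hℓ) ≠ 0)
    {s : ℤ} (hs : s ^ 2 = 1) (hθq : θ (HeckeDuality.heckeOp N 2 q hq) = s)
    {A : ValuationSubring (AlgebraicClosure ℚ)} (hA : A.LiesOverPrime q) {σ τ : AbsGal}
    (hσ : A.IsFrobeniusAt σ q) (hτ : τ ∈ A.inertiaSubgroupIn ℚ) :
    (D.eigenAction ι θ σ - ((s * q : ℤ) : O) • 1) * (D.eigenAction ι θ τ - 1) = 0 ∧
      (D.eigenAction ι θ τ - 1) * (D.eigenAction ι θ σ - (s : O) • 1) = 0 := by
  have hrank := D.finrank_eigenspace_domain θ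
  have hunip : ∀ τ ∈ A.inertiaSubgroupIn ℚ, (D.eigenAction ι θ τ - 1) ^ 2 = 0 := by
    intro τ hτ
    refine LinearMap.ext fun v => Subtype.ext ?_
    have h0 := congrArg ι.mapMatrix (hU A hA τ hτ)
    rw [pow_two, map_mul, map_sub, map_one, map_zero, RingHom.mapMatrix_apply] at h0
    have h := congrArg (fun m : Matrix (Fin D.d) (Fin D.d) O => m.mulVec v.1) h0
    simp only [Matrix.zero_mulVec, ← Matrix.mulVec_mulVec, Matrix.sub_mulVec,
      Matrix.one_mulVec, Matrix.mulVec_sub] at h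
    simp only [pow_two, Module.End.mul_apply, LinearMap.sub_apply, Module.End.one_apply,
      AddSubgroupClass.coe_sub, HeckeGaloisModel.coe_eigenAction, LinearMap.zero_apply,
      ZeroMemClass.coe_zero, Matrix.mulVec_sub] at h ⊢
    exact h
  have hdet : LinearMap.det (D.eigenAction ι θ σ) = (q : O) :=
    D.det_eigenAction_of_roots ι θ hp fun n ζ hζ => GaloisReps.frobenius_apply_root hA hq hσ hζ
      fun h => hqp ((Nat.prime_dvd_prime_iff_eq hq Fact.out).1 (hq.dvd_of_dvd_pow h))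
  have hfix : ∀ v : GaloisReps.eigenspace D.hecke θ,
      (∀ g ∈ A.inertiaSubgroupIn ℚ, D.eigenAction ι θ g v = v) →
        D.eigenAction ι θ σ v = ((s : O) * (q : O)) • v := by
    intro v hv
    refine Subtype.ext ?_
    set Y := toricOp t hℓ
    have h := NewformLocal.mulVec_eq_zero_of_fixed ι
      (D.gal '' (A.inertiaSubgroupIn ℚ : Set AbsGal))
      (D.gal σ * matIn D.hecke ℤ_[p] Y -
        (q : ℤ_[p]) • matIn D.hecke ℤ_[p] (HeckeDuality.heckeOp N 2 q hq * Y))
      (fun w hw => hT R hR hRq t ht ℓ hℓ hℓN A hA σ hσ w fun τ hτ => hw _ ⟨τ, hτ, rfl⟩)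
      (v := v.1) (by
        rintro _ ⟨τ, hτ, rfl⟩
        rw [← D.coe_eigenAction, hv τ hτ])
    have e : ∀ T : FullHecke N, ι.mapMatrix ((q : ℤ_[p]) • matIn D.hecke ℤ_[p] T) =
        (q : O) • matIn D.hecke O T := fun T => by
      ext i j
      simp
    rw [← RingHom.mapMatrix_apply, map_sub, map_mul, e, RingHom.mapMatrix_apply,
      RingHom.mapMatrix_apply, D.matIn_map, Matrix.sub_mulVec, Matrix.smul_mulVec,
      ← Matrix.mulVec_mulVec, (GaloisReps.mem_eigenspace D.hecke θ _).1 v.2,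
      (GaloisReps.mem_eigenspace D.hecke θ _).1 v.2, Matrix.mulVec_smul, map_mul, hθq,
      smul_smul, show (q : O) * ((s : O) * θ Y) = θ Y * ((s : O) * q) by ring, ← smul_smul,
      ← smul_sub] at h
    rw [SetLike.val_smul, D.coe_eigenAction]
    exact sub_eq_zero.1 ((smul_eq_zero.1 h).resolve_left hθt)
  have hs' : (s : O) ^ 2 = 1 := by exact_mod_cast congrArg (fun z : ℤ => (z : O)) hs
  rw [Int.cast_mul, Int.cast_natCast]
  exact ⟨sub_mul_inertia_eq_zero hrank _ (A.inertiaSubgroupIn ℚ) hunip _ hfix hτ,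
    inertia_mul_sub_eq_zero hrank _ (A.inertiaSubgroupIn ℚ) hunip _ hs' hdet hfix
      (Nat.cast_ne_zero.2 hq.ne_zero)
      (fun h => hq.one_lt.ne' (Nat.cast_eq_one.1 h)) hτ⟩

end Model

section Glue

variable {O : Type} [CommRing O] [IsDomain O] [IsDiscreteValuationRing O]
  {p : ℕ} [Fact p.Prime]
  {L : ℕ} {Δ : Type} [CommGroup Δ] {ψ : (ZMod L)ˣ →* Δ} {S : Finset ℕ}
  {abar : ℕ → ResidueField O}
  {H : RT.HeckeModule L ψ S abar} {hS : ∀ q : ℕ, q.Prime → q ∣ L → q ∈ S}
  (D : ∀ (M : ℕ) [NeZero M], HeckeGaloisModel M p)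

/-- The relations at a point. -/
theorem signed_point {θK : H.algebra →+* KBar O} (P : Point (p := p) H hS θK) {v : ℕ}
    (hv : v.Prime) (hvp : v ≠ p) {s : ℤ} (hs : s ^ 2 = 1)
    (hU : v ∣ P.M → UnipotentAt (D P.M) v)
    (hT : v ∣ P.M → Semistable.ToricSignedAt (D P.M) v hv)
    (hsign : v ∣ P.M → ModularFormClass.qCoeff P.g v = (s : ℂ))
    {A : ValuationSubring (AlgebraicClosure ℚ)} (hA : A.LiesOverPrime v) {σ τ : AbsGal}
    (hσ : A.IsFrobeniusAt σ v) (hτ : τ ∈ A.inertiaSubgroupIn ℚ) :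
    (P.rep D σ - ((s * v : ℤ) : KBar O) • 1) * (P.rep D τ - 1) = 0 ∧
      (P.rep D τ - 1) * (P.rep D σ - (s : KBar O) • 1) = 0 := by
  by_cases h : v ∣ P.M
  · have hR : P.M / v ∣ P.M := Nat.div_dvd_of_dvd h
    have hRq : P.M / v * v = P.M := Nat.div_mul_cancel h
    have : NeZero (P.M / v) := ⟨fun h0 => NeZero.ne P.M (by rw [← hRq, h0, zero_mul])⟩
    obtain ⟨t, ht, htg⟩ := NewformLocal.exists_killsOld_ne_zero P.isNewform hR
      (Nat.div_lt_self (Nat.pos_of_ne_zero (NeZero.ne P.M)) hv.one_lt).ne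
    obtain ⟨ℓ, hℓ, hℓT, hne⟩ :=
      NewformLocal.exists_coeff_ne_succ P.isNewform.1 (P.M * p).primeFactors
    have hℓN : ¬ ℓ ∣ P.M * p := fun h' => hℓT (Nat.mem_primeFactors.mpr
      ⟨hℓ, h', mul_ne_zero (NeZero.ne P.M) (Fact.out : p.Prime).ne_zero⟩)
    have hθt : P.θ' (toricOp t hℓ) ≠ 0 := fun h0 => by
      have h2 := P.emb_θ' (toricOp t hℓ)
      rw [h0, map_zero, map_zero, toricOp, map_mul, map_sub, map_natCast,
        NewformLocal.eigenChar_toFull, eigenChar_heckeOp, eq_comm, mul_eq_zero, sub_eq_zero,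
        Nat.cast_add, Nat.cast_one] at h2
      exact h2.elim htg hne
    have hθv : P.θ' (HeckeDuality.heckeOp P.M 2 v hv) = (s : P.R) := by
      refine P.j_injective (P.emb.injective ?_)
      rw [P.emb_θ', eigenChar_heckeOp, hsign h, map_intCast, map_intCast]
    obtain ⟨h1, h2⟩ := signed_eigenAction (D P.M) P.ι P.θ' P.p_mem hv hvp hR hRq (hU h) (hT h)
      t ht hℓ hℓN hθt hs hθv hA hσ hτ
    refine ⟨?_, ?_⟩
    · have g1 := matrix_left P.j ((D P.M).eigenBasis P.θ') _ _ _ h1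
      rw [map_intCast] at g1
      exact g1
    · have g2 := matrix_right P.j ((D P.M).eigenBasis P.θ') _ _ _ h2
      rw [map_intCast] at g2
      exact g2
  · have hne : ¬ v ∣ P.M * p := fun h' => (hv.dvd_mul.1 h').elim h fun h'' =>
      hvp ((Nat.prime_dvd_prime_iff_eq hv Fact.out).1 h'')
    rw [P.rep_eq_one ((D P.M).gal_unramified v hv hne A hA τ hτ), sub_self, mul_zero, zero_mul]
    exact ⟨rfl, rfl⟩

variable [IsAdicComplete (maximalIdeal O) O] [Finite (ResidueField O)] [CharZero O]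
  [NeZero L] [Finite Δ] [IsLocalRing H.algebra]
  {D} {pt : ∀ θ : H.algebra →ₐ[O] KBar O, Point (p := p) H hS θ.toRingHom}

theorem eq_zero_of_trace_mul {B : Type} [CommRing B] {X : Deform.M2 B}
    {R : Set (Deform.M2 B)} (hR : Submodule.span B R = ⊤) (h : ∀ g ∈ R, (X * g).trace = 0) :
    X = 0 := by
  have h' : ∀ Y : Deform.M2 B, (X * Y).trace = 0 := fun Y => by
    induction (show Y ∈ Submodule.span B R by rw [hR]; trivial) using Submodule.span_induction with
    | mem Y hY => exact h Y hY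
    | zero => rw [mul_zero, Matrix.trace_zero]
    | add a b _ _ ha hb => rw [mul_add, Matrix.trace_add, ha, hb, add_zero]
    | smul c a _ ha => rw [mul_smul_comm, Matrix.trace_smul, ha, smul_zero]
  refine Matrix.ext fun i j => ?_
  have hij := h' (Matrix.single j i 1)
  rwa [Matrix.trace_mul_single, MulOpposite.op_one, one_smul] at hij

/-- **The signed Steinberg relations over the Hecke algebra.** -/
theorem isSignedAt_of_points (G : RT.Glue.Glued D pt) {v : ℕ} (hv : v.Prime) (hvL : v ∣ L)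
    (hvp : v ≠ p) (hψ : ∀ u : (ZMod L)ˣ, ((u : ZMod L).cast : ZMod (L / v)) = 1 → ψ u = 1)
    {s : ℤ} (hs : s ^ 2 = 1)
    (hU : ∀ (M : ℕ) [NeZero M], M ∣ L ^ 2 → v ∣ M → ¬ v ^ 2 ∣ M → UnipotentAt (D M) v)
    (hT : ∀ (M : ℕ) [NeZero M], M ∣ L ^ 2 → v ∣ M → ¬ v ^ 2 ∣ M →
      Semistable.ToricSignedAt (D M) v hv)
    (hsign : ∀ θ, v ∣ (pt θ).M → ModularFormClass.qCoeff (pt θ).g v = (s : ℂ)) :
    IsSignedAt G.rep v s := by
  refine ⟨G.isUnipotentOnInertiaAt hv hvL hvp hψ hU, fun A hA σ hσ τ hτ => ?_⟩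
  have key : ∀ θ : H.algebra →ₐ[O] KBar O,
      ((pt θ).rep D σ - ((s * v : ℤ) : KBar O) • 1) * ((pt θ).rep D τ - 1) = 0 ∧
        ((pt θ).rep D τ - 1) * ((pt θ).rep D σ - (s : KBar O) • 1) = 0 := fun θ => by
    have h2 : v ∣ (pt θ).M → ¬ v ^ 2 ∣ (pt θ).M := fun _ =>
      (pt θ).sq_not_dvd hv hvL fun u hu => by rw [hψ u hu, map_one, map_one]
    exact signed_point D (pt θ) hv hvp hs (fun h => hU _ (pt θ).dvd h (h2 h))
      (fun h => hT _ (pt θ).dvd h (h2 h)) (hsign θ) hA hσ hτ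
  let e : Deform.M2 H.algebra →+* Module.End H.algebra G.rep.V :=
    (Matrix.toLinAlgEquiv' (R := H.algebra) (n := Fin 2)).toAlgHom.toRingHom
  have hc : ∀ n : ℤ, e ((n : H.algebra) • 1) = (n : H.algebra) • 1 := fun n => by
    simp only [Int.cast_smul_eq_zsmul, map_zsmul, map_one]
  have hr : ∀ g, G.rep.ρ g = e (G.R g) := fun _ => rfl
  have hz : ∀ a b : ℤ, ∀ θ : H.algebra →ₐ[O] KBar O, θ ((a : H.algebra) * (b : H.algebra)) =
      (a : KBar O) * (b : KBar O) := fun a b θ => by rw [map_mul, map_intCast, map_intCast]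
  have h1 : (G.R σ - ((s * v : ℤ) : H.algebra) • 1) * (G.R τ - 1) = 0 := by
    refine eq_zero_of_trace_mul G.span_eq_top ?_
    rintro _ ⟨g, rfl⟩
    refine RT.Glue.eq_zero_of_forall_point fun θ => ?_
    have h0 := congrArg (fun Y => (Y * (pt θ).rep D g).trace) (key θ).1
    simp only [sub_mul, mul_sub, mul_one, smul_mul_assoc, one_mul, Matrix.trace_sub,
      Matrix.trace_smul, smul_eq_mul, ← map_mul, zero_mul, Matrix.trace_zero] at h0
    simp only [sub_mul, mul_sub, mul_one, smul_mul_assoc, one_mul, Matrix.trace_sub,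
      Matrix.trace_smul, smul_eq_mul, ← map_mul]
    simp only [map_sub, map_mul θ, map_intCast, G.trace_eq]
    exact h0
  have h2 : (G.R τ - 1) * (G.R σ - (s : H.algebra) • 1) = 0 := by
    refine eq_zero_of_trace_mul G.span_eq_top ?_
    rintro _ ⟨g, rfl⟩
    refine RT.Glue.eq_zero_of_forall_point fun θ => ?_
    have h0 := congrArg (fun Y => (Y * (pt θ).rep D g).trace) (key θ).2
    simp only [sub_mul, mul_sub, mul_one, mul_smul_comm, smul_mul_assoc, one_mul, Matrix.trace_sub,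
      Matrix.trace_smul, smul_eq_mul, ← map_mul, zero_mul, Matrix.trace_zero] at h0
    simp only [sub_mul, mul_sub, mul_one, mul_smul_comm, smul_mul_assoc, one_mul, Matrix.trace_sub,
      Matrix.trace_smul, smul_eq_mul, ← map_mul]
    simp only [map_sub, map_mul θ, map_intCast, G.trace_eq]
    exact h0
  rw [hr, hr, ← hc, ← hc, ← map_one e, ← map_sub, ← map_sub, ← map_sub, ← map_mul, ← map_mul,
    h1, h2, map_zero]
  exact ⟨rfl, rfl⟩

end Glue

end Fermat.Agent.Lifting
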