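import Fermat.Agent.Lifting.Galois.Signed
import Fermat.Agent.Lifting.Galois.Carayol

/-!
# The signed conditions from the points

For a lift of an absolutely irreducible residual representation to an algebra separated by its
`KBar O`-points, unipotence of inertia at `q` and the signed Steinberg relations follow from the
same relations for matrices with the same traces at every point.
-/

set_option autoImplicit false
set_option linter.style.haveILetI false

noncomputable section

namespace Fermat.Agent.Lifting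

open IsLocalRing Module Polynomial Fermat.Agent.Deform
open RT.Glue (KBar)

section Extend

variable {O : Type} [CommRing O] [IsDomain O]

/-- A character of the image of a map into a finite algebra extends to the algebra. -/
theorem exists_point_extension {R A : Type} [CommRing R] [Algebra O R] [CommRing A] [Algebra O A]
    [Module.Finite O A] (φ : R →ₐ[O] A) (z : R →ₐ[O] KBar O) (h : ∀ r, φ r = 0 → z r = 0) :
    ∃ θ : A →ₐ[O] KBar O, ∀ r, θ (φ r) = z r := by
  have : Algebra.IsIntegral O A := inferInstance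
  have : Algebra.IsIntegral φ.range A := Algebra.IsIntegral.tower_top O
  have hsurj : Function.Surjective φ.rangeRestrict := φ.rangeRestrict_surjective
  have hker : RingHom.ker φ.rangeRestrict ≤ RingHom.ker z := fun r hr =>
    h r (congrArg Subtype.val hr)
  let z₀ : φ.range →+* KBar O :=
    φ.rangeRestrict.toRingHom.liftOfSurjective hsurj ⟨z.toRingHom, hker⟩
  have hz₀ : ∀ r, z₀ (φ.rangeRestrict r) = z r := fun r =>
    RingHom.liftOfRightInverse_comp_apply _ _ _ _ r
  let P : Ideal φ.range := RingHom.ker z₀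
  have hP : P.IsPrime := RingHom.ker_isPrime z₀
  obtain ⟨Q, -, hQ, hQP⟩ := Ideal.exists_ideal_over_prime_of_isIntegral (R := φ.range) (S := A) P ⊥
    (fun x hx => by
      rw [Ideal.mem_comap, Ideal.mem_bot] at hx
      rw [show x = 0 from Subtype.ext hx]
      exact zero_mem _)
  have : Q.LiesOver P := ⟨hQP.symm⟩
  letI : Algebra (φ.range ⧸ P) (KBar O) := (RingHom.kerLift z₀).toAlgebra
  have : Module.IsTorsionFree (φ.range ⧸ P) (KBar O) :=
    Module.isTorsionFree_iff_algebraMap_injective.2 (RingHom.kerLift_injective z₀)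
  have : Module.IsTorsionFree (φ.range ⧸ P) (A ⧸ Q) := by
    refine Module.isTorsionFree_iff_algebraMap_injective.2
      ((injective_iff_map_eq_zero _).2 fun x hx => ?_)
    obtain ⟨x, rfl⟩ := Ideal.Quotient.mk_surjective x
    rw [Ideal.Quotient.algebraMap_mk_of_liesOver, Ideal.Quotient.eq_zero_iff_mem] at hx
    rw [Ideal.Quotient.eq_zero_iff_mem, ← hQP]
    exact hx
  have : Algebra.IsIntegral (φ.range ⧸ P) (A ⧸ Q) := ⟨fun x => by
    obtain ⟨a, rfl⟩ := Ideal.Quotient.mk_surjective x
    exact IsIntegral.map_of_comp_eq (Ideal.Quotient.mk P) (Ideal.Quotient.mk Q) (RingHom.ext fun r => rfl)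
      (Algebra.IsIntegral.isIntegral (R := φ.range) a)⟩
  haveI : IsDomain (φ.range ⧸ P) := Ideal.Quotient.isDomain P
  haveI : IsDomain (A ⧸ Q) := Ideal.Quotient.isDomain Q
  haveI : Nontrivial (φ.range ⧸ P) := Ideal.Quotient.nontrivial_iff.2 hP.ne_top
  have : Algebra.IsAlgebraic (φ.range ⧸ P) (A ⧸ Q) := Algebra.IsIntegral.isAlgebraic
  let f : A ⧸ Q →ₐ[φ.range ⧸ P] KBar O := IsAlgClosed.lift
  have hf : ∀ r, f (Ideal.Quotient.mk Q (φ r)) = z r := fun r => by
    have e : algebraMap (φ.range ⧸ P) (A ⧸ Q) (Ideal.Quotient.mk P (φ.rangeRestrict r)) =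
        Ideal.Quotient.mk Q (φ r) := rfl
    rw [← e, f.commutes]
    exact hz₀ r
  exact ⟨{ f.toRingHom.comp (Ideal.Quotient.mk Q) with
    commutes' := fun c => by
      show f (Ideal.Quotient.mk Q (algebraMap O A c)) = _
      rw [← φ.commutes c, hf, z.commutes] }, hf⟩

end Extend

variable {O : Type} [CommRing O] [IsDomain O] [IsDiscreteValuationRing O] [CharZero O]
  {A : Type} [CommRing A] [IsLocalRing A] [Algebra O A]

omit [CharZero O] in
/-- A lift of an absolutely irreducible representation spans the matrices. -/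
theorem span_matOf_eq_top {W : Rigid O} {ρbar : ResidualGaloisRep (ResidueField O)}
    {bb : Basis (Fin 2) (ResidueField O) ρbar.V} (hW : W.rb = matRes ρbar bb)
    (habs : ρbar.IsAbsolutelyIrreducible) (h : IsResAlg O A) {r : Gal →* M2 A}
    (hr : Lifts W h r) : Submodule.span A (Set.range r) = ⊤ := by
  haveI := h.isLocalHom
  refine RT.Glue.span_range_eq_top r (top_le_iff.1 fun X hX => ?_)
  clear hX
  set φ := ResidueField.map (algebraMap O A)
  have hbij : Function.Bijective φ := h.map_bijective
  obtain ⟨Y, rfl⟩ : ∃ Y : M2 (ResidueField O), φ.mapMatrix Y = X := by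
    choose Y hY using fun i j => hbij.2 (X i j)
    exact ⟨Matrix.of Y, Matrix.ext fun i j => hY i j⟩
  have hY : Y ∈ Submodule.span (ResidueField O) (Set.range W.rb) := by
    rw [hW, show Set.range (matRes ρbar bb) = Set.range fun σ =>
      LinearMap.toMatrixAlgEquiv bb (ρbar.ρ σ) from rfl, span_matrix_eq_top ρbar habs bb]
    trivial
  induction hY using Submodule.span_induction with
  | mem Y hY =>
    obtain ⟨σ, rfl⟩ := hY
    refine Submodule.subset_span ⟨σ, Matrix.ext fun i j => ?_⟩
    show residue A (r σ i j) = φ (W.rb σ i j)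
    rw [← hr σ i j, map_augment]
  | zero => rw [map_zero]; exact zero_mem _
  | add Y Z _ _ hY hZ => rw [map_add]; exact add_mem hY hZ
  | smul c Y _ hY =>
    rw [show φ.mapMatrix (c • Y) = φ c • φ.mapMatrix Y from Matrix.ext fun i j => map_mul φ _ _]
    exact Submodule.smul_mem _ _ hY

/-- **The signed conditions from the points.** -/
theorem isSignedAt_of_pointwise {ρbar : ResidualGaloisRep (ResidueField O)}
    (habs : ρbar.IsAbsolutelyIrreducible) (h : IsResAlg O A) [IsLocalHom (algebraMap O A)]
    (ρ : GaloisRepAdic A)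
    (hres : ρ.residual.IsEquiv (ρbar.baseChangeAlong (ResidueField.map (algebraMap O A))))
    (hsep : ∀ x : A, (∀ y : A →ₐ[O] KBar O, y x = 0) → x = 0) {q : ℕ} {s : ℤ}
    (hpt : ∀ y : A →ₐ[O] KBar O, ∃ r : Gal →* M2 (KBar O),
      (∀ σ, (r σ).trace = y (ρ.trace σ)) ∧
        ∀ P : ValuationSubring (AlgebraicClosure ℚ), P.LiesOverPrime q →
          ∀ τ ∈ P.inertiaSubgroupIn ℚ, (r τ - 1) ^ 2 = 0 ∧
            ∀ F : Gal, P.IsFrobeniusAt F q →
              (r F - ((s * q : ℤ) : KBar O) • 1) * (r τ - 1) = 0 ∧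
                (r τ - 1) * (r F - (s : KBar O) • 1) = 0) :
    IsSignedAt ρ q s := by
  let bb : Basis (Fin 2) (ResidueField O) ρbar.V :=
    Module.finBasisOfFinrankEq (ResidueField O) ρbar.V ρbar.finrank_eq
  obtain ⟨W, hW⟩ := exists_rigid ρbar habs bb
  obtain ⟨b, hl⟩ := exists_lifts_basis hW h ρ hres
  set R := matOf ρ b with hR
  have hspan := span_matOf_eq_top hW habs h hl
  have htr : ∀ σ, (R σ).trace = ρ.trace σ := fun σ => by
    rw [GaloisRepAdic.trace, LinearMap.trace_eq_matrix_trace A b]
    rfl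
  have h20 : (2 : KBar O) ≠ 0 := by
    haveI : CharZero (KBar O) := charZero_of_injective_algebraMap (R := O) (by
      rw [IsScalarTower.algebraMap_eq O (FractionRing O)]
      exact (algebraMap (FractionRing O) _).injective.comp (IsFractionRing.injective O _))
    exact two_ne_zero
  have hdet2 : ∀ {K : Type} [CommRing K] (M : M2 K), 2 * M.det = M.trace ^ 2 - (M * M).trace :=
    fun M => by
      simp [Matrix.det_fin_two, Matrix.trace_fin_two, Matrix.mul_apply, Fin.sum_univ_two]
      ring
  refine ⟨fun P hP τ hτ => ?_, fun P hP F hF τ hτ => ?_⟩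
  · have h2 : ∀ τ ∈ P.inertiaSubgroupIn ℚ, ρ.trace τ = 2 := fun τ hτ =>
      sub_eq_zero.1 (hsep _ fun y => by
        obtain ⟨r, hr, hrel⟩ := hpt y
        have hn := (hrel P hP τ hτ).1
        have h0 : (r τ - 1).trace = 0 := by
          rw [← isNilpotent_iff_eq_zero (R := KBar O)]
          exact Matrix.isNilpotent_trace_of_isNilpotent ⟨2, hn⟩
        rw [Matrix.trace_sub, Matrix.trace_one, Fintype.card_fin, sub_eq_zero, hr] at h0
        rw [map_sub, h0, map_ofNat, Nat.cast_ofNat, sub_self])
    have hd : (R τ).det = 1 := sub_eq_zero.1 (hsep _ fun y => by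
      have e := congrArg y (hdet2 (R τ))
      rw [← map_mul R, htr, htr, h2 τ hτ, h2 _ (mul_mem hτ hτ), map_mul, map_ofNat] at e
      rw [map_sub, map_one, sub_eq_zero]
      refine mul_left_cancel₀ h20 ?_
      rw [e, map_sub, map_pow, map_ofNat]
      norm_num)
    rw [← LinearMap.charpoly_toMatrix (ρ.ρ τ) b,
      show LinearMap.toMatrix b b (ρ.ρ τ) = R τ from rfl, Matrix.charpoly_fin_two, htr, h2 τ hτ,
      hd, map_ofNat, map_one]
    ring
  · have key : ∀ (c : ℤ) (X : Gal), (∀ y : A →ₐ[O] KBar O, ∀ r : Gal →* M2 (KBar O),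
        (∀ σ, (r σ).trace = y (ρ.trace σ)) →
        y (((R F - (c : A) • 1) * (R τ - 1) * R X).trace) =
          ((r F - (c : KBar O) • 1) * (r τ - 1) * r X).trace ∧
        y (((R τ - 1) * (R F - (c : A) • 1) * R X).trace) =
          ((r τ - 1) * (r F - (c : KBar O) • 1) * r X).trace) := by
      intro c X y r hr
      simp only [sub_mul, mul_sub, mul_one, smul_mul_assoc, mul_smul_comm, one_mul,
        Matrix.trace_sub, Matrix.trace_smul, smul_eq_mul, map_sub, map_mul y, map_intCast,
        ← map_mul R, ← map_mul r, htr, hr]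
      exact ⟨trivial, trivial⟩
    have h1 : (R F - ((s * q : ℤ) : A) • 1) * (R τ - 1) = 0 := by
      refine eq_zero_of_trace_mul hspan ?_
      rintro _ ⟨X, rfl⟩
      refine hsep _ fun y => ?_
      obtain ⟨r, hr, hrel⟩ := hpt y
      rw [(key _ X y r hr).1, ((hrel P hP τ hτ).2 F hF).1, zero_mul, Matrix.trace_zero]
    have h2 : (R τ - 1) * (R F - (s : A) • 1) = 0 := by
      refine eq_zero_of_trace_mul hspan ?_
      rintro _ ⟨X, rfl⟩
      refine hsep _ fun y => ?_
      obtain ⟨r, hr, hrel⟩ := hpt y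
      rw [(key _ X y r hr).2, ((hrel P hP τ hτ).2 F hF).2, zero_mul, Matrix.trace_zero]
    let e : Module.End A ρ.V ≃ₐ[A] M2 A := LinearMap.toMatrixAlgEquiv b
    have hc : ∀ n : ℤ, e ((n : A) • 1) = (n : A) • 1 := fun n => by rw [map_smul, map_one]
    constructor <;> refine e.injective ?_
    · rw [map_mul, map_sub, map_sub, hc, map_one, map_zero]
      exact h1
    · rw [map_mul, map_sub, map_sub, hc, map_one, map_zero]
      exact h2

end Fermat.Agent.Lifting
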