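import Fermat.Agent.Lifting.Galois.SignedDescent
import Fermat.Agent.Lifting.Eigen.PointSign
import Fermat.Agent.Lifting.Setup.Algebra
import Fermat.Agent.RT.Glue.Bridge
import Fermat.Agent.Semistable.Unconditional

/-!
# The sign at a raised prime over the algebra of a level

The representation over `levelT` with the operators as traces of Frobenius satisfies, at a prime
`q ≠ p` of `T` whose component is killed by `ψ`, the signed condition of sign `- eps q`.
-/

set_option autoImplicit false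
set_option linter.overlappingInstances false
set_option linter.style.haveILetI false
set_option maxHeartbeats 1600000

noncomputable section

namespace Fermat.Agent.Lifting

open IsLocalRing _root_.Module Fermat.Agent.Deform CongruenceSubgroup ModularFormClass
open Fermat.Agent.RT (HeckeModule halfInvExp)
open Fermat.Agent.RT.GammaH Fermat.Agent.RT.Glue Fermat.Agent.Lifting.Degeneracy
open Fermat.Agent.Lifting.Assembly (TwRing twHom wAct WAlg)

section Point

variable {O : Type} [CommRing O] [IsDomain O] [IsDiscreteValuationRing O]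
  {p : ℕ} [Fact p.Prime]
  {L : ℕ} {Δ : Type} [CommGroup Δ] {ψ : (ZMod L)ˣ →* Δ} {S : Finset ℕ}
  {abar : ℕ → ResidueField O}
  {H : RT.HeckeModule L ψ S abar} {hS : ∀ q : ℕ, q.Prime → q ∣ L → q ∈ S}
  (D : ∀ (M : ℕ) [NeZero M], GaloisReps.HeckeGaloisModel M p)

/-- Inertia acts unipotently at a point. -/
theorem point_inertia_sq {θK : H.algebra →+* KBar O} (P : Point (p := p) H hS θK) {q : ℕ}
    (hq : q.Prime) (hqp : q ≠ p) (hU : q ∣ P.M → NewformLocal.UnipotentAt (D P.M) q)
    {A : ValuationSubring (AlgebraicClosure ℚ)} (hA : A.LiesOverPrime q) {τ : GaloisReps.AbsGal}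
    (hτ : τ ∈ A.inertiaSubgroupIn ℚ) : (P.rep D τ - 1) ^ 2 = 0 := by
  by_cases hd : q ∣ P.M
  · have h1 : ((D P.M).eigenAction P.ι P.θ' τ - 1) ^ 2 = 0 := by
      refine LinearMap.ext fun w => Subtype.ext ?_
      have h1 := congrArg P.ι.mapMatrix (hU hd A hA τ hτ)
      rw [pow_two, map_mul, map_sub, map_one, map_zero, RingHom.mapMatrix_apply] at h1
      have h2 := congrArg (fun m : Matrix (Fin (D P.M).d) (Fin (D P.M).d) P.R => m.mulVec w.1) h1
      simp only [Matrix.zero_mulVec, ← Matrix.mulVec_mulVec, Matrix.sub_mulVec,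
        Matrix.one_mulVec, Matrix.mulVec_sub] at h2
      simp only [pow_two, Module.End.mul_apply, LinearMap.sub_apply, Module.End.one_apply,
        AddSubgroupClass.coe_sub, GaloisReps.HeckeGaloisModel.coe_eigenAction,
        LinearMap.zero_apply, ZeroMemClass.coe_zero, Matrix.mulVec_sub] at h2 ⊢
      exact h2
    let φ' : Module.End P.R (GaloisReps.eigenspace (D P.M).hecke P.θ') →+*
        Matrix (Fin 2) (Fin 2) (KBar O) :=
      P.j.mapMatrix.comp
        (LinearMap.toMatrixAlgEquiv ((D P.M).eigenBasis P.θ')).toAlgHom.toRingHom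
    rw [show P.rep D τ = φ' ((D P.M).eigenAction P.ι P.θ' τ) from rfl, ← map_one φ', ← map_sub,
      ← map_pow, h1, map_zero]
  · have hne : ¬ q ∣ P.M * p := fun h' => (hq.dvd_mul.1 h').elim hd fun h'' =>
      hqp ((Nat.prime_dvd_prime_iff_eq hq Fact.out).1 h'')
    rw [P.rep_eq_one ((D P.M).gal_unramified q hq hne A hA τ hτ), sub_self, zero_pow two_ne_zero]

end Point

/-- Traces agreeing at almost all Frobenius elements at a point agree everywhere. -/
theorem trace_eq_at_point {O : Type} [CommRing O] [IsDomain O] [IsDiscreteValuationRing O]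
    {B : Type} [CommRing B] [IsLocalRing B] [Algebra O B] [Module.Finite O B]
    {A : Type} [CommRing A] [IsLocalRing A] [Algebra O A] [Module.Finite O A]
    [IsLocalHom (algebraMap O A)] (hB : IsResAlg O B) (θ : B →ₐ[O] KBar O) (y : A →ₐ[O] KBar O)
    (hmem : ∀ t, y t ∈ θ.range) {R : Gal →* M2 B} (hR : IsCont R) (ρ : GaloisRepAdic A)
    (S : Finset ℕ)
    (hF : ∀ ℓ : ℕ, ℓ.Prime → ℓ ∉ S → ∀ P : ValuationSubring (AlgebraicClosure ℚ),
      P.LiesOverPrime ℓ → ∀ σ : Gal, P.IsFrobeniusAt σ ℓ → θ (R σ).trace = y (ρ.trace σ))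
    (σ : Gal) : θ (R σ).trace = y (ρ.trace σ) := by
  have hsurj : Function.Surjective θ.rangeRestrict := θ.rangeRestrict_surjective
  haveI : IsLocalRing θ.range :=
    IsLocalRing.of_surjective' (θ.rangeRestrict : B →+* θ.range) hsurj
  have hlθ : IsLocalHom (θ.rangeRestrict : B →+* θ.range) := IsLocalHom.of_surjective _ hsurj
  haveI : Module.Finite O θ.range :=
    Module.Finite.of_surjective θ.rangeRestrict.toLinearMap hsurj
  have hC : IsResAlg O θ.range := by
    haveI := hB.isLocalHom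
    refine ⟨⟨fun c hc => ?_⟩, fun z => ?_⟩
    · rw [← θ.rangeRestrict.commutes] at hc
      exact isUnit_of_map_unit (algebraMap O B) c (hlθ.map_nonunit (algebraMap O B c) hc)
    · obtain ⟨z, rfl⟩ := residue_surjective z
      obtain ⟨z, rfl⟩ := hsurj z
      obtain ⟨c, hc⟩ := hB.2 (residue B z)
      refine ⟨c, (?_ : residue θ.range (algebraMap O θ.range c) = _)⟩
      rw [← θ.rangeRestrict.commutes, ← sub_eq_zero, ← map_sub, ← map_sub, residue_eq_zero_iff,
        mem_maximalIdeal, mem_nonunits_iff]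
      have hm : ¬ IsUnit (algebraMap O B c - z) := by
        rw [← mem_nonunits_iff, ← mem_maximalIdeal, ← residue_eq_zero_iff, map_sub, sub_eq_zero]
        exact hc
      exact fun hu => hm (hlθ.map_nonunit _ hu)
  let b := _root_.Module.finBasisOfFinrankEq A ρ.V ρ.finrank_eq
  let y₀ : A →ₐ[O] θ.range := y.codRestrict θ.range hmem
  haveI := hC.isLocalHom
  have hly : IsLocalHom (y₀ : A →+* θ.range) := Assembly.isLocalHom_algHom y₀
  have htr : ∀ g, (matOf ρ b g).trace = ρ.trace g := fun g => by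
    rw [GaloisRepAdic.trace, LinearMap.trace_eq_matrix_trace _ b]
    rfl
  have hval : ∀ g, ((mapM (θ.rangeRestrict : B →+* θ.range) R g).trace : θ.range).1 =
      θ (R g).trace ∧ ((mapM (y₀ : A →+* θ.range) (matOf ρ b) g).trace : θ.range).1 =
        y (ρ.trace g) := fun g => by
    rw [← htr, Matrix.trace_fin_two, Matrix.trace_fin_two, Matrix.trace_fin_two,
      Matrix.trace_fin_two, map_add, map_add]
    exact ⟨rfl, rfl⟩
  have h1 := trace_eq_of_frobenius hC (hR.map _ hlθ) ((isCont_matOf ρ b).map _ hly) S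
    (fun ℓ hℓ hℓS P hP g hg => Subtype.ext (by
      rw [(hval g).1, (hval g).2, hF ℓ hℓ hℓS P hP g hg])) σ
  rw [← (hval σ).1, ← (hval σ).2, h1]

variable {O : Type} [CommRing O] [IsDomain O] [IsDiscreteValuationRing O]
  [IsAdicComplete (maximalIdeal O) O] [Finite (ResidueField O)] [CharZero O]
  {p : ℕ} [Fact p.Prime] [CharP (ResidueField O) p]
  {N : ℕ} [NeZero N] {Δ : Type} [CommGroup Δ] [Fintype Δ] {ψ : (ZMod N)ˣ →* Δ}
  {S : Finset ℕ} {abar : ℕ → ResidueField O}
  {K : Subgroup (ZMod N)ˣ} {e : ℕ} {hK : TwistSub N K e} {T : Finset ℕ} {eps : ℕ → O}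

/-- **The signed condition at a raised prime.** -/
theorem isSignedAt_levelT (hs : Module.Setup p ψ S abar) (hKψ : K = ψ.ker)
    (he : e = halfInvExp Δ) (hpS : p ∈ S)
    {ρbar : ResidualGaloisRep (ResidueField O)} (habs : ρbar.IsAbsolutelyIrreducible)
    (hbar : HasCharpolys S abar ρbar)
    [Nontrivial (wEigen S abar hK T eps)] [IsLocalRing (levelT S abar hK T eps)]
    [IsReduced (levelT S abar hK T eps)]
    (hA : IsResAlg O (levelT S abar hK T eps))
    [IsLocalHom (algebraMap O (levelT S abar hK T eps))]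
    (ρ : GaloisRepAdic (levelT S abar hK T eps))
    (hres : ρ.residual.IsEquiv
      (ρbar.baseChangeAlong (ResidueField.map (algebraMap O (levelT S abar hK T eps)))))
    (htr : ∀ ℓ : ℕ, ℓ.Prime → ℓ ∉ S → ∀ P : ValuationSubring (AlgebraicClosure ℚ),
      P.LiesOverPrime ℓ → ∀ σ : Gal, P.IsFrobeniusAt σ ℓ →
        ρ.trace σ = levelOp S abar hK T eps ℓ)
    {q M : ℕ} (hqT : q ∈ T) (hqp : q ≠ p) (h : ALLevel N q M)
    (hψq : ∀ u : (ZMod N)ˣ, h.toM u = 1 → ψ u = 1) {s : ℤ} (hs2 : s ^ 2 = 1)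
    (heps : eps q = -(s : O)) : IsSignedAt ρ q s := by
  classical
  subst hKψ he
  have hS := hs.primes
  have hp : (p : O) ∈ maximalIdeal O := by
    rw [← residue_eq_zero_iff, map_natCast]
    exact CharP.cast_eq_zero _ p
  have hΔ := hs.pGroup
  have hodd : Odd (Nat.card ((ZMod N)ˣ ⧸ ψ.ker)) := by rw [hs.card_quotient]; exact hs.odd_card
  obtain ⟨e, heH, heH₀⟩ := Module.exists_localizer_pair (O := O) (ψ := ψ) (S := S)
    (abar := abar) (L := N)
  set H := Module.heckeModule hs heH heH₀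
  have hle : ∀ x ∈ wEigen S abar hK T eps, x ∈ localPart O e (HomMod O S ψ.ker O) :=
    fun x hx => locSub_eq heH ▸ hx.1
  have hpos : 0 < H.d := by
    by_contra h0
    have : Subsingleton (Fin H.d × Δ →₀ O) :=
      ⟨fun _ _ => Finsupp.ext fun i => absurd i.1.2 (by omega)⟩
    have hM : Subsingleton H.M := H.basis_bijective.2.subsingleton
    obtain ⟨x, hx⟩ := exists_ne (0 : wEigen S abar hK T eps)
    have h1 : (⟨x.1, hle x.1 x.2⟩ : localPart O e (HomMod O S ψ.ker O)) = 0 :=
      @Subsingleton.elim H.M hM _ _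
    exact hx (Subtype.ext (congrArg
      (fun w : localPart O e (HomMod O S ψ.ker O) => (w : HomMod O S ψ.ker O)) h1))
  haveI := isLocalRing_algebra H hp hΔ hpos
  haveI := isLocalHom_algebraMap H hp hΔ
  -- the symbols in the two algebras
  let φ : TwRing O S →ₐ[O] H.algebra := MvPolynomial.aeval fun ℓ => sA H hS ℓ.2.1 ℓ.2.2
  let Φ : OpRing O N S →ₐ[O] Module.End O H.M := localAct O e (HomMod O S ψ.ker O)
  have hφ : ∀ r, (φ r : Module.End O H.M) = Φ (twHom O hS (halfInvExp Δ) r) := fun r => by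
    refine DFunLike.congr_fun (MvPolynomial.algHom_ext (f := H.algebra.val.comp φ)
      (g := Φ.comp (twHom O hS (halfInvExp Δ))) fun ℓ => ?_) r
    simp only [AlgHom.comp_apply, φ, twHom, MvPolynomial.aeval_X, Subalgebra.coe_val, sA, twEl,
      map_mul, SubmonoidClass.coe_pow]
    show H.dia (ψ _) ^ _ * H.T ℓ.1 = _
    rw [← map_pow, ← map_pow ψ, Module.heckeModule_dia hs heH heH₀,
      Module.heckeModule_T hs heH heH₀ ℓ]
    rfl
  let π₀ : TwRing O S →ₐ[O] levelT S abar hK T eps :=
    MvPolynomial.aeval fun ℓ => levelOp S abar hK T eps ℓ.1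
  have hπ₀ : ∀ r, (π₀ r : Module.End O (wEigen S abar hK T eps)) = wAct hS abar hK T eps r :=
    fun r => by
      refine DFunLike.congr_fun (MvPolynomial.algHom_ext (f := (levelT S abar hK T eps).val.comp π₀)
        (g := wAct hS abar hK T eps) fun ℓ => LinearMap.ext fun x => Subtype.ext ?_) r
      simp only [AlgHom.comp_apply, π₀, MvPolynomial.aeval_X, Subalgebra.coe_val]
      rw [coe_levelOp S abar hK T eps ℓ.2.1 ℓ.2.2 (Assembly.coprime_level hS ℓ), coe_twAct]
      show _ = twHom O hS (halfInvExp Δ) (MvPolynomial.X ℓ) • (x : HomMod O S ψ.ker O)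
      rw [twHom, MvPolynomial.aeval_X]
  let π : WAlg hS abar hK T eps →ₐ[O] levelT S abar hK T eps :=
    Ideal.Quotient.liftₐ _ π₀ fun r hr => Subtype.ext ((hπ₀ r).trans (RingHom.mem_ker.1 hr))
  have hπop : ∀ (ℓ : ℕ), ℓ.Prime → ℓ ∉ S →
      π (WAlg.op hS abar hK T eps ℓ) = levelOp S abar hK T eps ℓ := fun ℓ hℓ hℓS => by
    rw [WAlg.op_eq hS abar hK T eps ⟨ℓ, hℓ, hℓS⟩]
    exact MvPolynomial.aeval_X _ _
  have hφker : ∀ r, φ r = 0 → π₀ r = 0 := fun r hr => Subtype.ext <| (hπ₀ r).trans <| by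
    refine LinearMap.ext fun x => Subtype.ext ?_
    show twHom O hS (halfInvExp Δ) r • (x : HomMod O S ψ.ker O) = 0
    have h1 := LinearMap.congr_fun ((hφ r).symm.trans (congrArg Subtype.val hr))
      ⟨x.1, hle x.1 x.2⟩
    exact congrArg Subtype.val h1
  haveI : Module.Finite O (levelT S abar hK T eps) :=
    have : Module.Finite O (wEigen S abar hK T eps) :=
      Module.Finite.of_fg (IsNoetherian.noetherian _)
    have : Module.Free O (wEigen S abar hK T eps) := Module.free_of_finite_type_torsion_free'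
    Module.Finite.of_injective (levelT S abar hK T eps).val.toLinearMap Subtype.val_injective
  haveI : Module.IsTorsionFree O (levelT S abar hK T eps) :=
    Function.Injective.moduleIsTorsionFree
      (fun x : levelT S abar hK T eps => (x : Module.End O (wEigen S abar hK T eps)))
      Subtype.val_injective fun _ _ => rfl
  -- the glued representation
  let D : ∀ (M : ℕ) [NeZero M], GaloisReps.HeckeGaloisModel M p := fun M _ =>
    GaloisReps.heckeGaloisModel M p
  let pt := fun θ => (exists_point hp H hS θ).some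
  obtain ⟨G, -⟩ := exists_glued hp hΔ hs.ne_two hpS habs hbar D pt
  have hres' : IsResAlg O H.algebra :=
    ⟨inferInstance, residue_algebraMap_surjective H hp hΔ⟩
  refine isSignedAt_of_pointwise habs hA ρ hres (fun x hx => ?_) fun y => ?_
  · by_contra hx0
    obtain ⟨y, hy⟩ := exists_algHom_apply_ne_zero (O := O) hx0
    exact hy (hx y)
  obtain ⟨θ, hθ⟩ := exists_point_extension φ (y.comp π₀) fun r hr => by
    rw [AlgHom.comp_apply, hφker r hr, map_zero]
  have hθs : ∀ (ℓ : ℕ) (hℓ : ℓ.Prime) (hℓS : ℓ ∉ S),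
      θ (sA H hS hℓ hℓS) = y (levelOp S abar hK T eps ℓ) := fun ℓ hℓ hℓS => by
    have h1 := hθ (MvPolynomial.X ⟨ℓ, hℓ, hℓS⟩)
    simpa [φ, π₀] using h1
  set P := pt θ with hPdef
  -- the traces agree
  have hcmp : ∀ σ, (P.rep D σ).trace = y (ρ.trace σ) := by
    intro σ
    rw [← G.trace_eq θ σ]
    refine trace_eq_at_point hres' θ y (fun t => ?_) G.cont ρ S (fun ℓ hℓ hℓS A hAℓ σ hσ => ?_) σ
    · have ht : t ∈ Algebra.adjoin O (levelOp S abar hK T eps '' {ℓ | ℓ.Prime ∧ ℓ ∉ S}) := by
        rw [adjoin_levelOp S abar hK T eps hS]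
        exact Algebra.mem_top
      induction ht using Algebra.adjoin_induction with
      | mem t ht =>
        obtain ⟨ℓ, ⟨hℓ, hℓS⟩, rfl⟩ := ht
        exact ⟨_, hθs ℓ hℓ hℓS⟩
      | algebraMap r => rw [AlgHom.commutes]; exact Subalgebra.algebraMap_mem _ r
      | add u v _ _ hu hv => rw [map_add]; exact add_mem hu hv
      | mul u v _ _ hu hv => rw [map_mul]; exact mul_mem hu hv
    · rw [G.trace_eq θ σ, htr ℓ hℓ hℓS A hAℓ σ hσ, ← hθs ℓ hℓ hℓS]
      have h3 := P.trace_frobenius_pow D hpS hℓ hℓS hAℓ hσ 1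
      rw [pow_one] at h3
      refine h3.trans ?_
      simp [GaloisReps.powerTrace]
  refine ⟨P.rep D, hcmp, ?_⟩
  -- the relations at the point
  have hqN : q ∣ N := h.dvdQ
  have hψ' : ∀ u : (ZMod N)ˣ, ((u : ZMod N).cast : ZMod (N / q)) = 1 → ψ u = 1 := fun u hu => by
    refine hψq u (Units.ext ?_)
    rw [show N / q = M by rw [h.eq, Nat.mul_div_cancel M h.prime.pos]] at hu
    rw [ALLevel.toM, ZMod.unitsMap_val, Units.val_one]
    exact hu
  have h2 : q ∣ P.M → ¬ q ^ 2 ∣ P.M := fun _ =>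
    P.sq_not_dvd h.prime hqN fun u hu => by rw [hψ' u hu, map_one, map_one]
  have hsign : q ∣ P.M → qCoeff P.g q = (s : ℂ) := fun hd => by
    let : Algebra O ℂ := (P.emb.toRingHom.comp (algebraMap O (KBar O))).toAlgebra
    have hinj : Function.Injective (algebraMap O ℂ) := by
      refine P.emb.injective.comp ?_
      rw [IsScalarTower.algebraMap_eq O (FractionRing O)]
      exact (algebraMap (FractionRing O) _).injective.comp (IsFractionRing.injective O _)
    let y' : WAlg hS abar hK T eps →ₐ[O] ℂ :=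
      { P.emb.toRingHom.comp (y.comp π).toRingHom with
        commutes' := fun c => by
          show P.emb ((y.comp π) (algebraMap O _ c)) = _
          rw [AlgHom.commutes]
          rfl }
    have hy' : ∀ ℓ : ℕ, ℓ.Prime → ℓ ∉ S → qCoeff P.g ℓ = y' (WAlg.op hS abar hK T eps ℓ) :=
      fun ℓ hℓ hℓS => by
        show _ = P.emb (y (π (WAlg.op hS abar hK T eps ℓ)))
        rw [hπop ℓ hℓ hℓS, ← hθs ℓ hℓ hℓS]
        have hv := P.emb_θ' (HeckeDuality.heckeOp P.M 2 ℓ hℓ)
        rw [P.value hℓ hℓS, eigenChar_heckeOp P.isNewform.1 hℓ] at hv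
        exact hv.symm
    have := Eigen.newform_qCoeff_eq_neg_eps hS abar hK T eps hinj hs.sqfree hodd hs.notEis hqT h
      (fun u hu => hψq u hu) (by
        rw [heps, neg_mul_neg, ← Int.cast_mul, ← pow_two, hs2, Int.cast_one]) y' P.isNewform hd
      (h2 hd) hy'
    rw [this, heps, map_neg, neg_neg, map_intCast]
  intro A hAq τ hτ
  exact ⟨point_inertia_sq D P h.prime hqp
      (fun hd => Semistable.unipotentAt_model P.M p h.prime hqp hd (h2 hd)) hAq hτ,
    fun F hF => signed_point D P h.prime hqp hs2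
      (fun hd => Semistable.unipotentAt_model P.M p h.prime hqp hd (h2 hd))
      (fun hd => Semistable.toricSignedAt_model P.M p h.prime hqp (h2 hd)) hsign hAq hF hτ⟩

end Fermat.Agent.Lifting
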