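import Fermat.Agent.NewformLocal.Plane
import Mathlib.LinearAlgebra.Trace

/-!
# Signed relations on a plane

A group of unipotent automorphisms of a plane over a domain and an endomorphism `F` of determinant
`q` which is `s q` on every vector fixed by the group, `s ^ 2 = 1`: then `(F - s q) (τ - 1) = 0`
and `(τ - 1) (F - s) = 0` on the plane.
-/

set_option autoImplicit false

noncomputable section

open Module Polynomial

namespace Fermat.Agent.Lifting

variable {O : Type*} [CommRing O] [IsDomain O] {V : Type*} [AddCommGroup V] [Module O V]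
  [Module.Free O V] [Module.Finite O V] {G : Type*} [Group G]

/-- The image of a unipotent element of the group is fixed by the group. -/
theorem fixed_of_sub (hV : finrank O V = 2) (ρ : G →* Module.End O V) (H : Subgroup G)
    (hH : ∀ g ∈ H, (ρ g - 1) ^ 2 = 0) {τ : G} (hτ : τ ∈ H) (x : V) :
    ∀ g ∈ H, ρ g ((ρ τ - 1) x) = (ρ τ - 1) x := by
  intro g hg
  have h := NewformLocal.nilp_apply_eq_zero hV (n₀ := ρ τ - 1) (n := ρ g - 1)
    (by rw [← pow_two]; exact hH τ hτ) (by rw [← pow_two]; exact hH g hg) ?_ x
  · rwa [LinearMap.sub_apply, Module.End.one_apply, sub_eq_zero] at h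
  · have e : ρ τ - 1 + (ρ g - 1) + (ρ τ - 1) * (ρ g - 1) = ρ (τ * g) - 1 := by
      rw [map_mul]; noncomm_ring
    rw [e, ← pow_two]
    exact hH _ (mul_mem hτ hg)

variable (hV : finrank O V = 2) (ρ : G →* Module.End O V) (H : Subgroup G)
  (hH : ∀ g ∈ H, (ρ g - 1) ^ 2 = 0) (F : Module.End O V) {q s : O} (hs : s ^ 2 = 1)
  (hdet : LinearMap.det F = q) (hfix : ∀ v : V, (∀ g ∈ H, ρ g v = v) → F v = (s * q) • v)

include hV hH hfix in
theorem sub_mul_inertia_eq_zero {τ : G} (hτ : τ ∈ H) : (F - (s * q) • 1) * (ρ τ - 1) = 0 :=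
  LinearMap.ext fun x => by
    rw [Module.End.mul_apply, LinearMap.sub_apply, LinearMap.smul_apply, Module.End.one_apply,
      hfix _ (fixed_of_sub hV ρ H hH hτ x), sub_self, LinearMap.zero_apply]

include hV hH hdet hfix hs in
/-- The characteristic polynomial is `(X - s q) (X - s)`. -/
theorem trace_eq_of_fixed (hq : q ≠ 0) : LinearMap.trace O V F = s * q + s := by
  obtain ⟨v, hv0, hv⟩ := NewformLocal.exists_common_fixed hV ρ H hH
  let b := Module.finBasisOfFinrankEq O V hV
  have hc : LinearMap.charpoly F = X ^ 2 - C (LinearMap.trace O V F) * X + C q := by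
    rw [← LinearMap.charpoly_toMatrix F b, Matrix.charpoly_fin_two, LinearMap.det_toMatrix, hdet,
      LinearMap.trace_eq_matrix_trace O b]
  have h := LinearMap.congr_fun (LinearMap.aeval_self_charpoly F) v
  rw [hc] at h
  simp only [map_add, map_sub, map_mul, aeval_X, aeval_C, LinearMap.add_apply,
    LinearMap.sub_apply, Module.End.mul_apply, Module.algebraMap_end_apply, pow_two,
    LinearMap.zero_apply, hfix v hv, map_smul, smul_smul, ← sub_smul, ← add_smul] at h
  have h1 := (smul_eq_zero.1 h).resolve_right hv0
  refine sub_eq_zero.1 ((mul_eq_zero.1 (?_ : (s * q) * (LinearMap.trace O V F - (s * q + s)) = 0))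
    |>.resolve_left (mul_ne_zero (fun h0 => by simp [h0] at hs) hq))
  linear_combination (-1 : O) * h1 - q * hs

include hV hH hdet hfix hs in
theorem inertia_mul_sub_eq_zero (hq : q ≠ 0) (hq1 : q ≠ 1) {τ : G} (hτ : τ ∈ H) :
    (ρ τ - 1) * (F - s • 1) = 0 := by
  refine LinearMap.ext fun x => ?_
  rw [Module.End.mul_apply, LinearMap.zero_apply]
  set n := ρ τ - 1
  set w := (F - s • (1 : Module.End O V)) x with hw
  by_contra hne
  have htr := trace_eq_of_fixed hV ρ H hH F hs hdet hfix hq
  let b := Module.finBasisOfFinrankEq O V hV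
  -- `F w = s q w`
  have hFw : F w = (s * q) • w := by
    have hc : LinearMap.charpoly F = X ^ 2 - C (s * q + s) * X + C q := by
      rw [← LinearMap.charpoly_toMatrix F b, Matrix.charpoly_fin_two, LinearMap.det_toMatrix, hdet,
        ← LinearMap.trace_eq_matrix_trace O b, htr]
    have h := LinearMap.congr_fun (LinearMap.aeval_self_charpoly F) x
    rw [hc] at h
    simp only [map_add, map_sub, map_mul, aeval_X, aeval_C, LinearMap.add_apply,
      LinearMap.sub_apply, Module.End.mul_apply, Module.algebraMap_end_apply, pow_two,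
      LinearMap.zero_apply] at h
    rw [← sub_eq_zero, ← h, hw, LinearMap.sub_apply, LinearMap.smul_apply, Module.End.one_apply,
      map_sub, map_smul, smul_sub, smul_smul,
      show s * q * s = q by linear_combination q * hs]
    rw [← mul_smul]
    abel
  have hli : LinearIndependent O ![w, n w] := by
    refine LinearIndependent.pair_iff.2 fun a c hac => ?_
    have h1 := congrArg n hac
    have hnn : n (n w) = 0 := by
      have := LinearMap.congr_fun (hH τ hτ) w
      rwa [pow_two] at this
    rw [map_add, map_smul, map_smul, hnn, smul_zero, add_zero, map_zero] at h1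
    have ha : a = 0 := (smul_eq_zero.1 h1).resolve_right hne
    rw [ha, zero_smul, zero_add] at hac
    exact ⟨ha, (smul_eq_zero.1 hac).resolve_right hne⟩
  -- `F` is then the scalar `s q`, contradicting the determinant
  have hFn : F (n w) = (s * q) • n w := hfix _ (fixed_of_sub hV ρ H hH hτ w)
  have hF : F = (s * q) • 1 := by
    refine LinearMap.ext fun y => ?_
    obtain ⟨r, a, c, hr, hy⟩ := NewformLocal.exists_smul_eq_comb hV hli y
    refine smul_right_injective V hr ?_
    show r • F y = r • ((s * q) • (1 : Module.End O V)) y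
    rw [← map_smul, ← map_smul, hy, map_add, map_smul, map_smul, hFw, hFn, LinearMap.smul_apply,
      Module.End.one_apply, smul_add, smul_comm a, smul_comm c]
  rw [hF, LinearMap.det_smul, hV, map_one, mul_one] at hdet
  exact hq1 (mul_left_cancel₀ hq (by linear_combination hdet - q ^ 2 * hs))

end Fermat.Agent.Lifting
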