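import Fermat.Agent.RT.Assembly.Entries
import Fermat.Agent.Deform.Burnside

/-!
# A representation with traces in a subalgebra is defined over it

Let `A` be a finite local algebra over a complete discrete valuation ring in which `2` is a unit and
`S` a subalgebra containing the traces of a lift `r` of an absolutely irreducible residual
representation. The entries of the normalised conjugate of `r` lie in `S`.
-/

set_option autoImplicit false
set_option linter.style.haveILetI false

noncomputable section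

namespace Fermat.Agent.Lifting

open IsLocalRing Matrix Fermat.Agent.Deform

variable {O : Type} [CommRing O] [IsDomain O] [IsDiscreteValuationRing O]
  {A : Type} [CommRing A] [IsLocalRing A] [Algebra O A] [Module.Finite O A]

omit [IsLocalRing A] in
theorem trace_evalC_mul_mem {S : Subalgebra O A} {r : Gal →* M2 A}
    (htr : ∀ σ, (r σ).trace ∈ S) (c : Gal →₀ O) (σ : Gal) :
    (r σ * evalC c r).trace ∈ S := by
  simp only [evalC, Finsupp.sum, Finset.mul_sum, Matrix.trace_sum, mul_smul_comm,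
    Matrix.trace_smul, ← map_mul]
  exact S.sum_mem fun τ _ => S.smul_mem (htr _) _

/-- The inverse in `A` of an element of `S` lies in `S`. -/
theorem isUnit_subalgebra {S : Subalgebra O A} {x : S} (hx : IsUnit (x : A)) : IsUnit x :=
  haveI := RT.Assembly.isLocalHom_subalgebra_val S
  (isUnit_map_iff (S.val : S →+* A) x).mp hx

theorem mem_of_mul_mem {S : Subalgebra O A} {x y : A} (hx : x ∈ S) (hu : IsUnit x)
    (hxy : x * y ∈ S) : y ∈ S := by
  obtain ⟨u, hu'⟩ := isUnit_subalgebra (x := (⟨x, hx⟩ : S)) hu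
  have hy : y = ((↑u⁻¹ * ⟨x * y, hxy⟩ : S) : A) := by
    have h1 : ((↑u⁻¹ : S) : A) * x = 1 := by
      rw [show x = ((⟨x, hx⟩ : S) : A) from rfl, ← hu', ← S.coe_mul, Units.inv_mul, S.coe_one]
    rw [S.coe_mul, ← mul_assoc, h1, one_mul]
  exact hy ▸ SetLike.coe_mem _

/-- The two diagonal entries of `X = diag (x₀, x₁)`, `x₀ ≡ 1`, `x₁ ≡ 0`, are determined by the
traces of its powers. -/
theorem diag_entries_mem [IsAdicComplete (maximalIdeal O) O] (h : IsResAlg O A)
    (S : Subalgebra O A) (h2 : IsUnit (2 : A)) {x₀ x₁ : A} (h0 : augment h x₀ = 1)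
    (h1 : augment h x₁ = 0) (hs : x₀ + x₁ ∈ S) (hq : x₀ ^ 2 + x₁ ^ 2 ∈ S) :
    x₀ ∈ S ∧ x₁ ∈ S := by
  haveI : IsLocalRing S := RT.Assembly.isLocalRing_subalgebra S
  have hS := RT.Assembly.isResAlg_subalgebra h S
  haveI := RT.Assembly.isAdicComplete_subalgebra S hS.isLocalHom
  haveI : HenselianRing S (maximalIdeal S) := IsAdicComplete.henselianRing S _
  have hp2 : x₀ * x₁ ∈ S := by
    refine mem_of_mul_mem (x := 2) (natCast_mem S 2) h2 ?_
    rw [show (2 : A) * (x₀ * x₁) = (x₀ + x₁) ^ 2 - (x₀ ^ 2 + x₁ ^ 2) by ring]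
    exact S.sub_mem (S.pow_mem hs 2) hq
  set s : S := ⟨x₀ + x₁, hs⟩
  set d : S := ⟨x₀ * x₁, hp2⟩
  have hs' : augment hS s = 1 := by
    rw [RT.Assembly.augment_subalgebra h S]
    show augment h (x₀ + x₁) = 1
    rw [map_add, h0, h1, add_zero]
  have hd' : augment hS d = 0 := by
    rw [RT.Assembly.augment_subalgebra h S]
    show augment h (x₀ * x₁) = 0
    rw [map_mul, h1, mul_zero]
  obtain ⟨l, hl, hl1⟩ := HenselianRing.is_henselian (I := maximalIdeal S)
    (Polynomial.X ^ 2 - Polynomial.C s * Polynomial.X + Polynomial.C d) (by monicity!) 1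
    ((augment_eq_zero_iff hS _).mp (by simp [hs', hd']))
    (IsUnit.map _ (isUnit_of_augment_ne_zero hS (by simp [hs'])))
  simp only [Polynomial.IsRoot, Polynomial.eval_add, Polynomial.eval_sub, Polynomial.eval_pow,
    Polynomial.eval_X, Polynomial.eval_C, Polynomial.eval_mul] at hl
  have el : augment h (l : A) = 1 := by
    have h' := (augment_eq_zero_iff hS _).mpr hl1
    rw [map_sub, map_one, sub_eq_zero, RT.Assembly.augment_subalgebra h S] at h'
    exact h'
  have hl' : ((l : A) - x₀) * ((l : A) - x₁) = 0 := by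
    have := congrArg (Subtype.val : S → A) hl
    simp only [s, d, S.coe_add, S.coe_sub, S.coe_pow, S.coe_mul, S.coe_zero] at this
    linear_combination this
  have hu : IsUnit ((l : A) - x₁) :=
    isUnit_of_augment_ne_zero h (by rw [map_sub, el, h1, sub_zero]; exact one_ne_zero)
  have hx : x₀ ∈ S := by
    have := hu.mul_left_eq_zero.mp hl'
    rw [sub_eq_zero] at this
    exact this ▸ l.2
  exact ⟨hx, by simpa using S.sub_mem hs hx⟩

/-- Entries of a normalised lift lie in every subalgebra containing the traces. -/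
theorem entries_mem_of_trace_mem [IsAdicComplete (maximalIdeal O) O]
    {W : Rigid O} {h : IsResAlg O A} {r : Gal →* M2 A} (hl : Lifts W h r) (hn : IsNormal W r)
    (hspan : Submodule.span (ResidueField O) (Set.range W.rb) = ⊤) (h2 : IsUnit (2 : A))
    {S : Subalgebra O A} (htr : ∀ σ, (r σ).trace ∈ S) (σ : Gal) (i j : Fin 2) :
    r σ i j ∈ S := by
  obtain ⟨hX01, hX10, hY10⟩ := hn
  set X := evalC W.cX r with hX
  set Y := evalC W.cY r with hY
  have htX : ∀ τ, (r τ * X).trace ∈ S := trace_evalC_mul_mem htr W.cX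
  have hXtr : ∀ Z : M2 A, (∀ τ, (r τ * Z).trace ∈ S) → ∀ c : Gal →₀ O,
      (evalC c r * Z).trace ∈ S := fun Z hZ c => by
    simp only [evalC, Finsupp.sum, Finset.sum_mul, smul_mul_assoc, Matrix.trace_sum,
      Matrix.trace_smul]
    exact S.sum_mem fun τ _ => S.smul_mem (hZ τ) _
  have a0 : augment h (X 0 0) = 1 := by simpa [Matrix.single_apply] using augment_X hl 0 0
  have a1 : augment h (X 1 1) = 0 := by simpa [Matrix.single_apply] using augment_X hl 1 1
  have hsum : X 0 0 + X 1 1 ∈ S := by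
    simpa [Matrix.trace_fin_two] using hXtr 1 (fun τ => by simpa using htr τ) W.cX
  have hsq : X 0 0 ^ 2 + X 1 1 ^ 2 ∈ S := by
    have := hXtr X htX W.cX
    simpa [Matrix.trace_fin_two, Matrix.mul_apply, Fin.sum_univ_two, hX01, hX10, pow_two, ← hX]
      using this
  obtain ⟨x0, x1⟩ := diag_entries_mem h S h2 a0 a1 hsum hsq
  have hu : IsUnit (X 0 0 - X 1 1) :=
    isUnit_of_augment_ne_zero h (by rw [map_sub, a0, a1, sub_zero]; exact one_ne_zero)
  -- diagonal entries
  have hdiag : ∀ τ, r τ 0 0 ∈ S ∧ r τ 1 1 ∈ S := fun τ => by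
    have h0 : r τ 0 0 ∈ S := by
      refine mem_of_mul_mem (S.sub_mem x0 x1) hu ?_
      have e : (X 0 0 - X 1 1) * r τ 0 0 = (r τ * X).trace - X 1 1 * (r τ).trace := by
        simp [Matrix.trace_fin_two, Matrix.mul_apply, Fin.sum_univ_two, hX01, hX10]
        ring
      exact e ▸ S.sub_mem (htX τ) (S.mul_mem x1 (htr τ))
    exact ⟨h0, by simpa [Matrix.trace_fin_two] using S.sub_mem (htr τ) h0⟩
  have hprod : ∀ τ υ, r τ 0 1 * r υ 1 0 ∈ S := fun τ υ => by
    have e : (r (τ * υ)) 0 0 - r τ 0 0 * r υ 0 0 = r τ 0 1 * r υ 1 0 := by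
      rw [map_mul]
      simp [Matrix.mul_apply, Fin.sum_univ_two]
    exact e ▸ S.sub_mem (hdiag _).1 (S.mul_mem (hdiag τ).1 (hdiag υ).1)
  have hY10' : (W.cY.sum fun υ o => o • r υ 1 0) = 1 := by
    rw [← evalC_apply]
    exact hY10
  have hupper : ∀ τ, r τ 0 1 ∈ S := fun τ => by
    have e : r τ 0 1 = W.cY.sum fun υ o => o • (r τ 0 1 * r υ 1 0) := by
      conv_lhs => rw [← mul_one (r τ 0 1), ← hY10']
      simp only [Finsupp.sum, Finset.mul_sum, mul_smul_comm]
    rw [e]
    exact S.sum_mem fun υ _ => S.smul_mem (hprod τ υ) _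
  obtain ⟨τ, hτ⟩ : ∃ τ, W.rb τ 0 1 ≠ 0 := by
    by_contra! hall
    have hmem : ∀ M ∈ Submodule.span (ResidueField O) (Set.range W.rb), M 0 1 = 0 := by
      intro M hM
      induction hM using Submodule.span_induction with
      | mem M hM => obtain ⟨υ, rfl⟩ := hM; exact hall υ
      | zero => rfl
      | add M N _ _ hM hN => simp [hM, hN]
      | smul c M _ hM => simp [hM]
    have := hmem (Matrix.single 0 1 1) (by rw [hspan]; trivial)
    simp at this
  have hτu : IsUnit (r τ 0 1) := isUnit_of_augment_ne_zero h (by rw [hl]; exact hτ)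
  have hlower : r σ 1 0 ∈ S := mem_of_mul_mem (hupper τ) hτu (hprod τ σ)
  fin_cases i <;> fin_cases j
  exacts [(hdiag σ).1, hupper σ, hlower, (hdiag σ).2]

end Fermat.Agent.Lifting
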